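/-
KL-A / NOR-abs (sub-architect helper287).  TASK NOR-6.
Glue: (H0) for `A ⊆ B` from the corresponding statement for `A' = A[1/π] ⊆ B' = B[1/π]`.
-/
import Mathlib

set_option autoImplicit false

namespace Fermat.Agent.S18.Nor

variable {A B K F : Type*}
  [CommRing A] [IsDomain A] [CommRing B] [IsDomain B] [Algebra A B]
  [Field K] [Algebra A K] [IsFractionRing A K]
  [Field F] [Algebra B F] [IsFractionRing B F] [Algebra A F] [Algebra K F]
  [IsScalarTower A B F] [IsScalarTower A K F]

theorem H0_of_away (π : A) (A' B' : Type*) [CommRing A'] [CommRing B']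
    [Algebra A A'] [IsLocalization.Away π A'] [Algebra B B']
    [IsLocalization.Away (algebraMap A B π) B']
    [Algebra A' K] [IsScalarTower A A' K] [Algebra B' F] [IsScalarTower B B' F]
    (D : A) (E : ℕ)
    (h : ∀ Y : F,
      (∀ c : B', ∃ t : A', Algebra.trace K F (Y * algebraMap B' F c) = algebraMap A' K t) →
      ∃ z : B', Y ^ E * algebraMap A F D ^ (E - 1) = algebraMap B' F z) :
    ∀ Y : F, (∀ c : B, ∃ t : A, Algebra.trace K F (Y * algebraMap B F c) = algebraMap A K t) →
      ∃ (m : ℕ) (z : B),
        algebraMap A F π ^ m * (Y ^ E * algebraMap A F D ^ (E - 1)) = algebraMap B F z := by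
  intro Y hY
  -- `π` is invertible in `A'`, hence nonzero in `K` and `F`
  obtain ⟨u, hu⟩ := IsLocalization.Away.algebraMap_isUnit (S := A') π
  have hπK : algebraMap A' K (↑u⁻¹ : A') * algebraMap A K π = 1 := by
    rw [IsScalarTower.algebraMap_apply A A' K, ← hu, ← map_mul, Units.inv_mul, map_one]
  have hπK0 : algebraMap A K π ≠ 0 := right_ne_zero_of_mul_eq_one hπK
  have hπF : algebraMap A F π = algebraMap K F (algebraMap A K π) :=
    IsScalarTower.algebraMap_apply A K F π
  have hπBF : algebraMap B' F (algebraMap B B' (algebraMap A B π)) = algebraMap A F π := by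
    rw [← IsScalarTower.algebraMap_apply B B' F, ← IsScalarTower.algebraMap_apply A B F]
  have key : ∀ c : B', ∃ t : A',
      Algebra.trace K F (Y * algebraMap B' F c) = algebraMap A' K t := by
    intro c'
    obtain ⟨i, c, hc⟩ := IsLocalization.Away.surj (algebraMap A B π) c'
    obtain ⟨t, ht⟩ := hY c
    refine ⟨(↑u⁻¹ : A') ^ i * algebraMap A A' t, ?_⟩
    have hc' : algebraMap B' F c' * algebraMap A F π ^ i = algebraMap B F c := by
      have := congrArg (algebraMap B' F) hc
      rwa [map_mul, map_pow, hπBF, ← IsScalarTower.algebraMap_apply B B' F] at this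
    have h1 : algebraMap A K π ^ i • (Y * algebraMap B' F c') = Y * algebraMap B F c := by
      rw [Algebra.smul_def, map_pow, ← hπF, ← hc']
      ring
    have h2 : algebraMap A K π ^ i * Algebra.trace K F (Y * algebraMap B' F c')
        = algebraMap A K t := by
      rw [← ht, ← h1, map_smul, smul_eq_mul]
    rw [map_mul (algebraMap A' K), map_pow (algebraMap A' K),
      ← IsScalarTower.algebraMap_apply A A' K, ← h2, ← mul_assoc, ← mul_pow,
      hπK, one_pow, one_mul]
  obtain ⟨z', hz'⟩ := h Y key
  obtain ⟨m, z, hz⟩ := IsLocalization.Away.surj (algebraMap A B π) z'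
  refine ⟨m, z, ?_⟩
  have := congrArg (algebraMap B' F) hz
  rw [map_mul, map_pow, hπBF, ← IsScalarTower.algebraMap_apply B B' F] at this
  rw [hz', ← this, mul_comm]

end Fermat.Agent.S18.Nor
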