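/-
KL-A / NOR-abs (sub-architect helper287).  TASK NOR-4.
A lemma on Dedekind domains: `R` a PID, `L / k` finite separable, `C` the integral closure.
If `d ∈ R` is squarefree and `y ^ E * d ^ (E - 1) ∈ C` then `y` lies in the codifferent of `C / R`.
-/
import Mathlib

set_option autoImplicit false

namespace Fermat.Agent.S18.Nor

open IsDedekindDomain WithZero

/-- arithmetic in the value group. -/
theorem charL_val_arith (a t : WithZero (Multiplicative ℤ)) (e E : ℕ) (hE : 0 < E) (he : e ≠ 0)
    (h1 : a ^ E * (exp (-(e : ℤ))) ^ (E - 1) ≤ 1) (h2 : t ≤ exp (-((e - 1 : ℕ) : ℤ))) :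
    a * t ≤ 1 := by
  rcases eq_or_ne a 0 with rfl | ha
  · simp
  obtain ⟨m, rfl⟩ : ∃ m : ℤ, a = exp m := ⟨log a, (exp_log ha).symm⟩
  rw [← exp_nsmul, ← exp_nsmul, ← exp_add, ← exp_zero, exp_le_exp] at h1
  have hm : m ≤ ((e - 1 : ℕ) : ℤ) := by
    obtain ⟨E', rfl⟩ : ∃ E', E = E' + 1 := ⟨E - 1, by omega⟩
    obtain ⟨e', rfl⟩ : ∃ e', e = e' + 1 := ⟨e - 1, by omega⟩
    simp only [Nat.add_sub_cancel, nsmul_eq_mul] at h1 ⊢
    push_cast at h1
    by_contra hlt
    have h3 : (e' : ℤ) + 1 ≤ m := not_le.mp hlt
    have h4 : ((E' : ℤ) + 1) * ((e' : ℤ) + 1) ≤ ((E' : ℤ) + 1) * m :=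
      mul_le_mul_of_nonneg_left h3 (by positivity)
    nlinarith
  calc exp m * t ≤ exp m * exp (-((e - 1 : ℕ) : ℤ)) := by gcongr
    _ = exp (m + -((e - 1 : ℕ) : ℤ)) := (exp_add _ _).symm
    _ ≤ exp 0 := by rw [exp_le_exp]; omega
    _ = 1 := exp_zero

variable {R C k L : Type*}
  [CommRing R] [IsDomain R] [IsPrincipalIdealRing R]
  [Field k] [Algebra R k] [IsFractionRing R k]
  [Field L] [Algebra k L] [Algebra R L] [IsScalarTower R k L]
  [FiniteDimensional k L] [Algebra.IsSeparable k L]
  [CommRing C] [Algebra R C] [Algebra C L] [IsScalarTower R C L] [IsIntegralClosure C R L]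

variable (k) in
include k in
/-- local statement at one height-one prime. -/
theorem charL_local [IsDedekindDomain C] [IsFractionRing C L] [Module.IsTorsionFree R C]
    [Module.Finite R C] [Algebra.IsIntegral R C]
    (y : L) (d : R) (hd : Squarefree d) (E : ℕ) (hE : 0 < E)
    (h : ∃ c : C, y ^ E * algebraMap R L d ^ (E - 1) = algebraMap C L c)
    (t : C) (ht : t ∈ differentIdeal R C) (v : HeightOneSpectrum C) :
    v.valuation L (y * algebraMap C L t) ≤ 1 := by
  obtain ⟨c, hc⟩ := h
  have hinj : Function.Injective (algebraMap R C) := FaithfulSMul.algebraMap_injective R C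
  have hq0 : v.asIdeal.comap (algebraMap R C) ≠ ⊥ := Ideal.IsIntegral.comap_ne_bot R v.ne_bot
  have : v.asIdeal.IsPrime := v.isPrime
  have hqp : (v.asIdeal.comap (algebraMap R C)).IsPrime := Ideal.comap_isPrime _ _
  have hqm : (v.asIdeal.comap (algebraMap R C)).IsMaximal := hqp.isMaximal hq0
  obtain ⟨w, hw⟩ : ∃ w : R, v.asIdeal.comap (algebraMap R C) = Ideal.span {w} :=
    ⟨_, (IsPrincipalIdealRing.principal _).span_singleton_generator.symm⟩
  have hw0 : w ≠ 0 := by
    rintro rfl
    exact hq0 (by rw [hw]; simp)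
  have hwp : Prime w := by
    rw [← Ideal.span_singleton_prime hw0, ← hw]; exact hqp
  have hmem : ∀ r : R, algebraMap R C r ∈ v.asIdeal ↔ w ∣ r := by
    intro r
    rw [← Ideal.mem_comap, hw, Ideal.mem_span_singleton]
  have hwC0 : algebraMap R C w ≠ 0 := by
    rw [Ne, map_eq_zero_iff _ hinj]; exact hw0
  -- the ramification index
  set e : ℕ := multiplicity v.asIdeal (Ideal.span {algebraMap R C w}) with he
  have hvw : v.intValuation (algebraMap R C w) = exp (-(e : ℤ)) :=
    v.intValuation_eq_exp_neg_multiplicity hwC0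
  have he0 : e ≠ 0 := by
    intro h0
    have h1 : v.intValuation (algebraMap R C w) < 1 :=
      (v.intValuation_lt_one_iff_mem _).mpr ((hmem w).mpr dvd_rfl)
    rw [hvw, h0] at h1
    simp at h1
  have hdvd : v.asIdeal ^ e ∣ (v.asIdeal.comap (algebraMap R C)).map (algebraMap R C) := by
    rw [hw, Ideal.map_span, Set.image_singleton, ← v.intValuation_le_pow_iff_dvd, hvw]
  have hdiff : v.asIdeal ^ (e - 1) ∣ differentIdeal R C :=
    pow_sub_one_dvd_differentIdeal_aux R k L v.asIdeal he0 hq0 hdvd
  have hvt : v.intValuation t ≤ exp (-((e - 1 : ℕ) : ℤ)) := by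
    rw [v.intValuation_le_pow_iff_mem]
    exact Ideal.le_of_dvd hdiff ht
  -- the valuation inequality from the hypothesis
  have hval : (v.valuation L y) ^ E * (v.intValuation (algebraMap R C d)) ^ (E - 1) ≤ 1 := by
    have h1 : v.valuation L (y ^ E * algebraMap R L d ^ (E - 1)) ≤ 1 := by
      rw [hc]; exact v.valuation_le_one c
    rwa [map_mul, map_pow, map_pow, IsScalarTower.algebraMap_apply R C L,
      v.valuation_of_algebraMap] at h1
  rw [map_mul, v.valuation_of_algebraMap]
  by_cases hwd : w ∣ d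
  · obtain ⟨d', rfl⟩ := hwd
    have hwd' : ¬ w ∣ d' := by
      intro hh
      exact hwp.not_isUnit (hd w (mul_dvd_mul_left w hh))
    have hvd' : v.intValuation (algebraMap R C d') = 1 := by
      rw [HeightOneSpectrum.intValuation_eq_one_iff, hmem]; exact hwd'
    rw [map_mul, map_mul, hvd', mul_one, hvw] at hval
    exact charL_val_arith _ _ e E hE he0 hval hvt
  · have hvd : v.intValuation (algebraMap R C d) = 1 := by
      rw [HeightOneSpectrum.intValuation_eq_one_iff, hmem]; exact hwd
    rw [hvd, one_pow, mul_one] at hval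
    have h1 : v.valuation L y ≤ 1 := (pow_le_one_iff hE.ne').mp hval
    exact mul_le_one' h1 (v.intValuation_le_one t)

theorem trace_mul_mem_of_pow_mul_mem (y : L) (d : R) (hd : Squarefree d) (E : ℕ) (hE : 0 < E)
    (h : ∃ c : C, y ^ E * algebraMap R L d ^ (E - 1) = algebraMap C L c) (c : C) :
    ∃ r : R, Algebra.trace k L (y * algebraMap C L c) = algebraMap R k r := by
  have : IsDomain C := (IsIntegralClosure.algebraMap_injective C R L).isDomain
  have : IsDedekindDomain C := IsIntegralClosure.isDedekindDomain R k L C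
  have : IsFractionRing C L := IsIntegralClosure.isFractionRing_of_finite_extension R k L C
  have : Module.Finite R C := IsIntegralClosure.finite R k L C
  have : Algebra.IsIntegral R C := IsIntegralClosure.isIntegral_algebra R L
  have hinj : Function.Injective (algebraMap R C) := by
    have h1 : Function.Injective (algebraMap R L) := by
      rw [IsScalarTower.algebraMap_eq R k L]
      exact (algebraMap k L).injective.comp (IsFractionRing.injective R k)
    rw [IsScalarTower.algebraMap_eq R C L] at h1
    exact Function.Injective.of_comp h1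
  have : FaithfulSMul R C := (faithfulSMul_iff_algebraMap_injective R C).mpr hinj
  have : Module.IsTorsionFree R C := inferInstance
  have h10 : (1 : FractionalIdeal (nonZeroDivisors C) L) ≠ 0 := one_ne_zero
  have hdual : y ∈ FractionalIdeal.dual R k (1 : FractionalIdeal (nonZeroDivisors C) L) := by
    have h1 : FractionalIdeal.dual R k (1 : FractionalIdeal (nonZeroDivisors C) L)
        = ((differentIdeal R C : Ideal C) : FractionalIdeal (nonZeroDivisors C) L)⁻¹ := by
      rw [coeIdeal_differentIdeal R k L C, inv_inv]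
    have h0 : ((differentIdeal R C : Ideal C) : FractionalIdeal (nonZeroDivisors C) L) ≠ 0 := by
      rw [coeIdeal_differentIdeal R k L C]
      exact inv_ne_zero (FractionalIdeal.dual_ne_zero R k h10)
    rw [h1, FractionalIdeal.mem_inv_iff h0]
    intro z hz
    obtain ⟨t, ht, rfl⟩ := (FractionalIdeal.mem_coeIdeal _).mp hz
    rw [FractionalIdeal.mem_one_iff]
    exact HeightOneSpectrum.mem_integers_of_valuation_le_one L _
      (fun v => charL_local k y d hd E hE h t ht v)
  have := (FractionalIdeal.mem_dual (A := R) (K := k) h10).mp hdual (algebraMap C L c)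
    ((FractionalIdeal.mem_one_iff _).mpr ⟨c, rfl⟩)
  obtain ⟨r, hr⟩ := this
  exact ⟨r, by rw [hr, Algebra.traceForm_apply]⟩

end Fermat.Agent.S18.Nor
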