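/-
KL-A / NOR-abs (sub-architect helper287).  TASK NOR-1 (proved by helper129).
Setting: `A` normal noetherian domain, `π ∈ A`, `R = A/π` a PID, `B` a domain finite over `A`,
`Bb = B/π` a domain.  `K, F, k, L` the fraction fields of `A, B, R, Bb`.
This file: lift an `R`-basis of `Bb` to `B`; the lifts form a `K`-basis of `F`.
-/
import Mathlib

set_option autoImplicit false
set_option linter.unusedSectionVars false

namespace Fermat.Agent.S18.Nor

open Module

variable {A R B Bb : Type*}
  [CommRing A] [IsDomain A] [IsNoetherianRing A]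
  [CommRing R] [IsDomain R] [IsPrincipalIdealRing R] [Algebra A R]
  [CommRing B] [IsDomain B] [Algebra A B] [Module.Finite A B] [FaithfulSMul A B]
  [CommRing Bb] [IsDomain Bb] [Algebra B Bb] [Algebra A Bb] [Algebra R Bb]
  [IsScalarTower A B Bb] [IsScalarTower A R Bb] [FaithfulSMul R Bb]

include A in
variable (A) in
omit [IsDomain A] [IsNoetherianRing A] [IsDomain R] [IsPrincipalIdealRing R] [IsDomain B]
  [FaithfulSMul A B] [IsDomain Bb] [FaithfulSMul R Bb] in
/-- `Bb` is a finite `R`-module. -/
theorem finite_Bb (hB : Function.Surjective (algebraMap B Bb)) : Module.Finite R Bb := by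
  have h1 : Module.Finite A Bb :=
    Module.Finite.of_surjective (IsScalarTower.toAlgHom A B Bb).toLinearMap hB
  exact Module.Finite.of_restrictScalars_finite A R Bb

/-- Lifting a basis: there are `b i ∈ B` reducing to an `R`-basis of `Bb`, and `u = 1 + π a` with
`u B ⊆ ∑ A b i` (Nakayama). -/
theorem exists_lift (π : A)
    (hR : Function.Surjective (algebraMap A R))
    (hB : Function.Surjective (algebraMap B Bb))
    (hBk : ∀ z : B, algebraMap B Bb z = 0 ↔ algebraMap A B π ∣ z) :
    ∃ (n : ℕ) (b : Fin n → B) (bb : Basis (Fin n) R Bb) (a : A),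
      (∀ i, algebraMap B Bb (b i) = bb i) ∧
      ∀ z : B, (1 + π * a) • z ∈ Submodule.span A (Set.range b) := by
  classical
  have hfin : Module.Finite R Bb := finite_Bb A hB
  obtain ⟨n, bb⟩ : Σ n, Basis (Fin n) R Bb := Module.basisOfFiniteTypeTorsionFree'
  choose b hb using fun i => hB (bb i)
  set N : Submodule A B := Submodule.span A (Set.range b) with hN
  -- every element is in `N + π B`
  have hdec : ∀ z : B, ∃ y ∈ N, ∃ z' : B, z = y + π • z' := by
    intro z
    choose c hc using fun i => hR (bb.repr (algebraMap B Bb z) i)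
    refine ⟨∑ i, c i • b i, ?_, ?_⟩
    · exact Submodule.sum_mem _ fun i _ =>
        Submodule.smul_mem _ _ (Submodule.subset_span ⟨i, rfl⟩)
    · have h0 : algebraMap B Bb (z - ∑ i, c i • b i) = 0 := by
        rw [map_sub, map_sum, sub_eq_zero]
        conv_lhs => rw [← bb.sum_repr (algebraMap B Bb z)]
        refine Finset.sum_congr rfl fun i _ => ?_
        rw [Algebra.smul_def (c i) (b i), map_mul, ← IsScalarTower.algebraMap_apply A B Bb, hb,
          IsScalarTower.algebraMap_apply A R Bb, hc, ← Algebra.smul_def]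
      obtain ⟨z', hz'⟩ := (hBk _).mp h0
      refine ⟨z', ?_⟩
      rw [Algebra.smul_def, ← hz']
      ring
  have htop : (⊤ : Submodule A (B ⧸ N)) ≤ Ideal.span {π} • (⊤ : Submodule A (B ⧸ N)) := by
    intro x _
    obtain ⟨z, rfl⟩ := Submodule.Quotient.mk_surjective N x
    obtain ⟨y, hy, z', rfl⟩ := hdec z
    rw [Submodule.Quotient.mk_add, (Submodule.Quotient.mk_eq_zero N).mpr hy, zero_add,
      Submodule.Quotient.mk_smul]
    exact Submodule.smul_mem_smul (Ideal.mem_span_singleton_self π) Submodule.mem_top
  obtain ⟨r, hr1, hr2⟩ := Submodule.exists_sub_one_mem_and_smul_eq_zero_of_fg_of_le_smul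
    (Ideal.span {π}) (⊤ : Submodule A (B ⧸ N)) (Module.Finite.fg_top) htop
  obtain ⟨a, ha⟩ := Ideal.mem_span_singleton'.mp hr1
  refine ⟨n, b, bb, a, hb, fun z => ?_⟩
  have hr : 1 + π * a = r := by
    rw [mul_comm, ha]
    ring
  rw [hr, ← Submodule.Quotient.mk_eq_zero N, Submodule.Quotient.mk_smul]
  exact hr2 _ Submodule.mem_top

/-- The lifts are linearly independent over `A`. -/
theorem linearIndependent_lift (π : A)
    (hRk : ∀ x : A, algebraMap A R x = 0 ↔ π ∣ x)
    {n : ℕ} (b : Fin n → B) (bb : Basis (Fin n) R Bb)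
    (hb : ∀ i, algebraMap B Bb (b i) = bb i) : LinearIndependent A b := by
  classical
  have hdvd : ∀ (m : ℕ) (c : Fin n → A), ∑ i, c i • b i = 0 → ∀ i, π ^ m ∣ c i := by
    intro m
    induction m with
    | zero => intro c _ i; simp
    | succ m ih =>
      intro c hc i
      have h1 : ∑ i, algebraMap A R (c i) • bb i = 0 := by
        have h2 := congrArg (algebraMap B Bb) hc
        rw [map_sum, map_zero] at h2
        rw [← h2]
        refine Finset.sum_congr rfl fun i _ => ?_
        rw [Algebra.smul_def (c i) (b i), map_mul, ← IsScalarTower.algebraMap_apply A B Bb, hb,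
          IsScalarTower.algebraMap_apply A R Bb, ← Algebra.smul_def]
      have h3 : ∀ i, π ∣ c i := fun i =>
        (hRk _).mp (Fintype.linearIndependent_iff.mp bb.linearIndependent _ h1 i)
      choose c' hc' using h3
      by_cases hπ : π = 0
      · rw [hc' i, hπ, zero_mul]
        exact dvd_zero _
      · have h4 : π • ∑ i, c' i • b i = 0 := by
          rw [Finset.smul_sum, ← hc]
          refine Finset.sum_congr rfl fun i _ => ?_
          rw [smul_smul, ← hc' i]
        have h5 : ∑ i, c' i • b i = 0 := (smul_eq_zero.mp h4).resolve_left hπ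
        rw [hc' i, pow_succ']
        exact mul_dvd_mul_left π (ih c' h5 i)
  have hne : Ideal.span {π} ≠ (⊤ : Ideal A) := by
    intro h
    rw [Ideal.span_singleton_eq_top] at h
    have h1 : algebraMap A R 1 = 0 := (hRk 1).mpr h.dvd
    rw [map_one] at h1
    exact one_ne_zero h1
  rw [Fintype.linearIndependent_iff]
  intro c hc i
  have hmem : c i ∈ ⨅ m : ℕ, Ideal.span {π} ^ m := by
    rw [Ideal.mem_iInf]
    intro m
    rw [Ideal.span_singleton_pow, Ideal.mem_span_singleton]
    exact hdvd m c hc i
  rw [Ideal.iInf_pow_eq_bot_of_isDomain _ hne] at hmem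
  exact hmem

variable {K F : Type*}
  [Field K] [Algebra A K] [IsFractionRing A K]
  [Field F] [Algebra B F] [IsFractionRing B F] [Algebra A F] [Algebra K F]
  [IsScalarTower A B F] [IsScalarTower A K F]

/-- The lifts form a `K`-basis of `F`. -/
theorem exists_basisF (π : A)
    (hRk : ∀ x : A, algebraMap A R x = 0 ↔ π ∣ x)
    {n : ℕ} (b : Fin n → B) (bb : Basis (Fin n) R Bb) (a : A)
    (hb : ∀ i, algebraMap B Bb (b i) = bb i)
    (ha : ∀ z : B, (1 + π * a) • z ∈ Submodule.span A (Set.range b)) :
    ∃ bF : Basis (Fin n) K F, ∀ i, bF i = algebraMap B F (b i) := by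
  classical
  have hli : LinearIndependent A b := linearIndependent_lift π hRk b bb hb
  have hliA : LinearIndependent A (fun i => algebraMap B F (b i)) :=
    hli.map' (IsScalarTower.toAlgHom A B F).toLinearMap
      (LinearMap.ker_eq_bot.mpr (IsFractionRing.injective B F))
  have hliK : LinearIndependent K (fun i => algebraMap B F (b i)) :=
    (LinearIndependent.iff_fractionRing A K).mp hliA
  have hu : 1 + π * a ≠ 0 := by
    intro h
    have h1 := congrArg (algebraMap A R) h
    rw [map_add, map_one, map_mul, (hRk π).mpr dvd_rfl, zero_mul, add_zero, map_zero] at h1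
    exact one_ne_zero h1
  have hinjK : Function.Injective (algebraMap A K) := IsFractionRing.injective A K
  -- the image of `B` lies in the span
  have hB : ∀ z : B, algebraMap B F z ∈
      Submodule.span K (Set.range fun i => algebraMap B F (b i)) := by
    intro z
    have h1 : algebraMap B F ((1 + π * a) • z) ∈
        Submodule.span K (Set.range fun i => algebraMap B F (b i)) := by
      have h2 := ha z
      generalize (1 + π * a) • z = w at h2
      induction h2 using Submodule.span_induction with
      | mem x hx =>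
        obtain ⟨i, rfl⟩ := hx
        exact Submodule.subset_span ⟨i, rfl⟩
      | zero => rw [map_zero]; exact Submodule.zero_mem _
      | add x y _ _ hx hy => rw [map_add]; exact Submodule.add_mem _ hx hy
      | smul c x _ hx =>
        rw [Algebra.smul_def, map_mul, ← IsScalarTower.algebraMap_apply A B F,
          IsScalarTower.algebraMap_apply A K F, ← Algebra.smul_def]
        exact Submodule.smul_mem _ _ hx
    rw [Algebra.smul_def, map_mul, ← IsScalarTower.algebraMap_apply A B F,
      IsScalarTower.algebraMap_apply A K F, ← Algebra.smul_def] at h1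
    have hu' : algebraMap A K (1 + π * a) ≠ 0 := by
      rw [Ne, map_eq_zero_iff _ hinjK]
      exact hu
    have h3 := Submodule.smul_mem _ (algebraMap A K (1 + π * a))⁻¹ h1
    rwa [smul_smul, inv_mul_cancel₀ hu', one_smul] at h3
  have hspan : ⊤ ≤ Submodule.span K (Set.range fun i => algebraMap B F (b i)) := by
    intro x _
    have : Algebra.IsAlgebraic A B := Algebra.IsAlgebraic.of_finite A B
    obtain ⟨⟨z, s⟩, hzs⟩ := IsLocalization.surj (Algebra.algebraMapSubmonoid B (nonZeroDivisors A)) x
    obtain ⟨s₀, hs₀, hs⟩ := s.2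
    have hs₀' : algebraMap A K s₀ ≠ 0 := by
      rw [Ne, map_eq_zero_iff _ hinjK]
      exact nonZeroDivisors.ne_zero hs₀
    have h1 : algebraMap A K s₀ • x = algebraMap B F z := by
      rw [Algebra.smul_def, ← IsScalarTower.algebraMap_apply A K F,
        IsScalarTower.algebraMap_apply A B F, hs, mul_comm]
      exact hzs
    have h2 := Submodule.smul_mem _ (algebraMap A K s₀)⁻¹ (hB z)
    rwa [← h1, smul_smul, inv_mul_cancel₀ hs₀', one_smul] at h2
  exact ⟨Basis.mk hliK hspan, fun i => by rw [Basis.mk_apply]⟩

variable {k L : Type*}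
  [Field k] [Algebra R k] [IsFractionRing R k]
  [Field L] [Algebra Bb L] [IsFractionRing Bb L] [Algebra R L] [Algebra k L]
  [IsScalarTower R Bb L] [IsScalarTower R k L]

omit [IsPrincipalIdealRing R] in
/-- An `R`-basis of `Bb` is a `k`-basis of `L`. -/
theorem exists_basisL {n : ℕ} (bb : Basis (Fin n) R Bb) :
    ∃ bL : Basis (Fin n) k L, ∀ i, bL i = algebraMap Bb L (bb i) := by
  have hfin : Module.Finite R Bb := Module.Finite.of_basis bb
  have : Algebra.IsAlgebraic R Bb := Algebra.IsAlgebraic.of_finite R Bb
  exact ⟨bb.localizationLocalization k (nonZeroDivisors R) L,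
    fun i => bb.localizationLocalization_apply k (nonZeroDivisors R) L i⟩

end Fermat.Agent.S18.Nor
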