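/-
KL-A / NOR-abs (sub-architect helper287).  TASK NOR-2 (proved by helper231).
The trace `F → K` restricted to `B` reduces mod `π` to the trace `L → k`.
-/
import Fermat.Agent.S18.Nor.Basic

set_option autoImplicit false
set_option linter.unusedSectionVars false

namespace Fermat.Agent.S18.Nor

open Module

/-- the trace computed from the multiplication table on a basis -/
theorem trace_eq_sum_of_mul_basis {R S ι : Type*} [CommRing R] [CommRing S] [Algebra R S]
    [Fintype ι] [DecidableEq ι] (b : Basis ι R S) (x : S) (c : ι → ι → R)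
    (h : ∀ j, x * b j = ∑ i, c i j • b i) : Algebra.trace R S x = ∑ i, c i i := by
  rw [Algebra.trace_eq_matrix_trace b, Matrix.trace]
  refine Finset.sum_congr rfl fun i _ => ?_
  rw [Matrix.diag_apply, Algebra.leftMulMatrix_eq_repr_mul, h i, Basis.repr_sum_self]

variable {A R B Bb K F k L : Type*}
  [CommRing A] [IsDomain A] [IsNoetherianRing A]
  [CommRing R] [IsDomain R] [IsPrincipalIdealRing R] [Algebra A R]
  [CommRing B] [IsDomain B] [Algebra A B] [Module.Finite A B] [FaithfulSMul A B]
  [CommRing Bb] [IsDomain Bb] [Algebra B Bb] [Algebra A Bb] [Algebra R Bb]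
  [IsScalarTower A B Bb] [IsScalarTower A R Bb] [FaithfulSMul R Bb]
  [Field K] [Algebra A K] [IsFractionRing A K]
  [Field F] [Algebra B F] [IsFractionRing B F] [Algebra A F] [Algebra K F]
  [IsScalarTower A B F] [IsScalarTower A K F]
  [Field k] [Algebra R k] [IsFractionRing R k]
  [Field L] [Algebra Bb L] [IsFractionRing Bb L] [Algebra R L] [Algebra k L]
  [IsScalarTower R Bb L] [IsScalarTower R k L]

/-- the trace of an element of `B` lies in `A` (`A` integrally closed). -/
theorem exists_trace_eq [IsIntegrallyClosed A] (z : B) :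
    ∃ t : A, Algebra.trace K F (algebraMap B F z) = algebraMap A K t := by
  have hz : IsIntegral A z := Algebra.IsIntegral.isIntegral z
  have hz' : IsIntegral A (algebraMap B F z) := hz.map (IsScalarTower.toAlgHom A B F)
  by_cases hfin : FiniteDimensional K F
  · have ht : IsIntegral A (Algebra.trace K F (algebraMap B F z)) := Algebra.isIntegral_trace hz'
    obtain ⟨t, ht⟩ := IsIntegrallyClosed.isIntegral_iff.mp ht
    exact ⟨t, ht.symm⟩
  · refine ⟨0, ?_⟩
    rw [map_zero, Algebra.trace_eq_zero_of_not_exists_basis, LinearMap.zero_apply]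
    rintro ⟨s, ⟨bs⟩⟩
    exact hfin (Module.Finite.of_basis bs)

/-- **Trace commutes with reduction.** -/
theorem trace_reduction (π : A)
    (hR : Function.Surjective (algebraMap A R))
    (hRk : ∀ x : A, algebraMap A R x = 0 ↔ π ∣ x)
    (hB : Function.Surjective (algebraMap B Bb))
    (hBk : ∀ z : B, algebraMap B Bb z = 0 ↔ algebraMap A B π ∣ z)
    (z : B) (t : A) (ht : Algebra.trace K F (algebraMap B F z) = algebraMap A K t) :
    Algebra.trace k L (algebraMap Bb L (algebraMap B Bb z)) =
      algebraMap R k (algebraMap A R t) := by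
  classical
  obtain ⟨n, b, bb, a, hb, ha⟩ := exists_lift (R := R) (Bb := Bb) π hR hB hBk
  obtain ⟨bF, hbF⟩ := exists_basisF (K := K) (F := F) π hRk b bb a hb ha
  obtain ⟨bL, hbL⟩ := exists_basisL (k := k) (L := L) bb
  set u : A := 1 + π * a with hu
  have hm : ∀ j, ∃ m : Fin n → A, ∑ i, m i • b i = u • (z * b j) := fun j =>
    (Submodule.mem_span_range_iff_exists_fun A).mp (ha (z * b j))
  choose m hm using hm
  -- trace upstairs
  have h1 : Algebra.trace K F (algebraMap A K u • algebraMap B F z) =
      ∑ i, algebraMap A K (m i i) := by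
    apply trace_eq_sum_of_mul_basis bF _ (fun i j => algebraMap A K (m j i))
    intro j
    have := congrArg (algebraMap B F) (hm j)
    simp only [map_sum, Algebra.smul_def, map_mul, ← IsScalarTower.algebraMap_apply A B F] at this
    simp only [hbF, Algebra.smul_def, ← IsScalarTower.algebraMap_apply A K F]
    rw [this]
    ring
  have h2 : u * t = ∑ i, m i i := by
    apply IsFractionRing.injective A K
    rw [map_mul, map_sum, ← h1, map_smul, ht, smul_eq_mul]
  have hu1 : algebraMap A R u = 1 := by
    rw [hu, map_add, map_one, map_mul, (hRk π).mpr dvd_rfl, zero_mul, add_zero]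
  -- trace downstairs
  have h3 : Algebra.trace k L (algebraMap Bb L (algebraMap B Bb z)) =
      ∑ i, algebraMap R k (algebraMap A R (m i i)) := by
    apply trace_eq_sum_of_mul_basis bL _ (fun i j => algebraMap R k (algebraMap A R (m j i)))
    intro j
    have := congrArg (fun x => algebraMap Bb L (algebraMap B Bb x)) (hm j)
    simp only [map_sum, Algebra.smul_def, map_mul, ← IsScalarTower.algebraMap_apply A B Bb,
      hb] at this
    simp only [IsScalarTower.algebraMap_apply A R Bb, hu1, map_one, one_mul,
      ← IsScalarTower.algebraMap_apply R Bb L] at this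
    simp only [hbL, Algebra.smul_def, ← IsScalarTower.algebraMap_apply R k L]
    rw [this]
  rw [h3, ← map_sum, ← map_sum, ← h2, map_mul, hu1, one_mul]

end Fermat.Agent.S18.Nor
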