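/-
KL-A / NOR-abs (sub-architect helper287).  TASK NOR-3.
Lifting the trace-dual basis of `Bb` to characteristic zero.
-/
import Fermat.Agent.S18.Nor.TraceRed

set_option autoImplicit false

namespace Fermat.Agent.S18.Nor

open Module

variable {A R B Bb K F k L : Type*}
  [CommRing A] [IsDomain A] [IsNoetherianRing A] [IsIntegrallyClosed A]
  [CommRing R] [IsDomain R] [IsPrincipalIdealRing R] [Algebra A R]
  [CommRing B] [IsDomain B] [Algebra A B] [Module.Finite A B] [FaithfulSMul A B]
  [CommRing Bb] [IsDomain Bb] [Algebra B Bb] [Algebra A Bb] [Algebra R Bb]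
  [IsScalarTower A B Bb] [IsScalarTower A R Bb] [FaithfulSMul R Bb]
  [Field K] [Algebra A K] [IsFractionRing A K]
  [Field F] [Algebra B F] [IsFractionRing B F] [Algebra A F] [Algebra K F]
  [IsScalarTower A B F] [IsScalarTower A K F]
  [Field k] [Algebra R k] [IsFractionRing R k]
  [Field L] [Algebra Bb L] [IsFractionRing Bb L] [Algebra R L] [Algebra k L]
  [IsScalarTower R Bb L] [IsScalarTower R k L]
  [FiniteDimensional k L] [Algebra.IsSeparable k L]

/-- With `s = det (Tr (b i * b j))` and `z i = ∑ j, adj i j • b j`:
`Tr (z i * b j) = s δ_ij` and `s ≠ 0 mod π` (separability of `L / k`). -/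
theorem exists_dual_lift (K F k L : Type*)
    [Field K] [Algebra A K] [IsFractionRing A K]
    [Field F] [Algebra B F] [IsFractionRing B F] [Algebra A F] [Algebra K F]
    [IsScalarTower A B F] [IsScalarTower A K F]
    [Field k] [Algebra R k] [IsFractionRing R k]
    [Field L] [Algebra Bb L] [IsFractionRing Bb L] [Algebra R L] [Algebra k L]
    [IsScalarTower R Bb L] [IsScalarTower R k L]
    [FiniteDimensional k L] [Algebra.IsSeparable k L] (π : A)
    (hR : Function.Surjective (algebraMap A R))
    (hRk : ∀ x : A, algebraMap A R x = 0 ↔ π ∣ x)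
    (hB : Function.Surjective (algebraMap B Bb))
    (hBk : ∀ z : B, algebraMap B Bb z = 0 ↔ algebraMap A B π ∣ z)
    {n : ℕ} (b : Fin n → B) (bb : Basis (Fin n) R Bb)
    (hb : ∀ i, algebraMap B Bb (b i) = bb i) :
    ∃ (s : A) (z : Fin n → B), algebraMap A R s ≠ 0 ∧
      ∀ i j, Algebra.trace K F (algebraMap B F (z i * b j)) =
        algebraMap A K (if j = i then s else 0) := by
  classical
  have hex : ∀ i j, ∃ t : A, Algebra.trace K F (algebraMap B F (b i * b j)) = algebraMap A K t :=
    fun i j => exists_trace_eq (K := K) (F := F) (b i * b j)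
  choose G hG using hex
  let M : Matrix (Fin n) (Fin n) A := Matrix.of G
  refine ⟨M.det, fun i => ∑ j, M.adjugate i j • b j, ?_, ?_⟩
  · obtain ⟨bL, hbL⟩ := exists_basisL (k := k) (L := L) bb
    have hM : Algebra.traceMatrix k bL = ((algebraMap R k).comp (algebraMap A R)).mapMatrix M := by
      ext i j
      rw [Algebra.traceMatrix_apply, Algebra.traceForm_apply, hbL i, hbL j, ← hb i, ← hb j,
        ← map_mul, ← map_mul,
        trace_reduction (K := K) (F := F) (k := k) (L := L) π hR hRk hB hBk (b i * b j) (G i j)
          (hG i j)]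
      rfl
    have hd : Algebra.discr k bL ≠ 0 := Algebra.discr_not_zero_of_basis k bL
    rw [Algebra.discr_def, hM, ← RingHom.map_det] at hd
    intro h0
    apply hd
    rw [RingHom.comp_apply, h0, map_zero]
  · intro i l
    have h1 : algebraMap B F ((∑ j, M.adjugate i j • b j) * b l)
        = ∑ j, algebraMap A K (M.adjugate i j) • algebraMap B F (b j * b l) := by
      rw [Finset.sum_mul, map_sum]
      refine Finset.sum_congr rfl fun j _ => ?_
      rw [smul_mul_assoc, Algebra.smul_def, map_mul, ← IsScalarTower.algebraMap_apply A B F,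
        Algebra.smul_def, ← IsScalarTower.algebraMap_apply A K F]
    rw [h1, map_sum]
    have h2 : ∀ j, Algebra.trace K F (algebraMap A K (M.adjugate i j) • algebraMap B F (b j * b l))
        = algebraMap A K (M.adjugate i j * M j l) := by
      intro j
      rw [map_smul, hG j l, smul_eq_mul, map_mul]
      rfl
    rw [Finset.sum_congr rfl fun j _ => h2 j, ← map_sum]
    congr 1
    have h3 : (M.adjugate * M) i l = ∑ j, M.adjugate i j * M j l := Matrix.mul_apply
    rw [← h3, Matrix.adjugate_mul, Matrix.smul_apply, Matrix.one_apply, smul_eq_mul]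
    by_cases h : i = l
    · subst h; simp
    · rw [if_neg h, if_neg (fun h' => h h'.symm), mul_zero]

/-- cancelling a power of a prime element `p` against a factor `t` prime to `p`. -/
theorem exists_eq_mul_of_pow_mul_eq {B Bb : Type*} [CommRing B] [IsDomain B] [CommRing Bb]
    [IsDomain Bb] [Algebra B Bb] (p : B) (hp : p ≠ 0)
    (hBk : ∀ z : B, algebraMap B Bb z = 0 ↔ p ∣ z) (t : B) (ht : algebraMap B Bb t ≠ 0) (X : B) :
    ∀ (m : ℕ) (z' : B), p ^ m * X = t * z' → ∃ z'' : B, X = t * z'' := by
  intro m
  induction m with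
  | zero =>
    intro z' h
    exact ⟨z', by simpa using h⟩
  | succ m ih =>
    intro z' h
    have hp0 : algebraMap B Bb p = 0 := (hBk p).2 dvd_rfl
    have h1 : algebraMap B Bb t * algebraMap B Bb z' = 0 := by
      rw [← map_mul, ← h, map_mul, map_pow, hp0, pow_succ, mul_zero, zero_mul]
    have h2 : algebraMap B Bb z' = 0 := (mul_eq_zero.1 h1).resolve_left ht
    obtain ⟨w, rfl⟩ := (hBk z').1 h2
    apply ih w
    apply mul_left_cancel₀ hp
    rw [← mul_assoc, ← pow_succ', h]
    ring

/-- **Key step.**  Every element `y` of the trace dual basis of `Bb` satisfies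
`y ^ E * D ^ (E - 1) ∈ Bb`, if (H0) holds in characteristic zero. -/
theorem traceDual_pow_mul_mem (π : A) (hπ : π ≠ 0)
    (hR : Function.Surjective (algebraMap A R))
    (hRk : ∀ x : A, algebraMap A R x = 0 ↔ π ∣ x)
    (hB : Function.Surjective (algebraMap B Bb))
    (hBk : ∀ z : B, algebraMap B Bb z = 0 ↔ algebraMap A B π ∣ z)
    (D : A) (E : ℕ)
    (H0 : ∀ Y : F, (∀ c : B, ∃ t : A, Algebra.trace K F (Y * algebraMap B F c) = algebraMap A K t) →
      ∃ (m : ℕ) (z : B),
        algebraMap A F π ^ m * (Y ^ E * algebraMap A F D ^ (E - 1)) = algebraMap B F z)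
    {n : ℕ} (b : Fin n → B) (bb : Basis (Fin n) R Bb) (a : A)
    (hb : ∀ i, algebraMap B Bb (b i) = bb i)
    (ha : ∀ z : B, (1 + π * a) • z ∈ Submodule.span A (Set.range b))
    (bL : Basis (Fin n) k L) (hbL : ∀ i, bL i = algebraMap Bb L (bb i)) (i : Fin n) :
    ∃ c : Bb, bL.traceDual i ^ E * algebraMap R L (algebraMap A R D) ^ (E - 1) =
      algebraMap Bb L c := by
  classical
  obtain ⟨s, z, hs, hz⟩ := exists_dual_lift K F k L π hR hRk hB hBk b bb hb
  -- injectivity facts
  have injAB : Function.Injective (algebraMap A B) := FaithfulSMul.algebraMap_injective A B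
  have injBF : Function.Injective (algebraMap B F) := IsFractionRing.injective B F
  have injAK : Function.Injective (algebraMap A K) := IsFractionRing.injective A K
  have injRk : Function.Injective (algebraMap R k) := IsFractionRing.injective R k
  have injRBb : Function.Injective (algebraMap R Bb) := FaithfulSMul.algebraMap_injective R Bb
  have injBbL : Function.Injective (algebraMap Bb L) := IsFractionRing.injective Bb L
  have hs0 : s ≠ 0 := fun h => hs (by rw [h, map_zero])
  set sk : k := algebraMap R k (algebraMap A R s) with hsk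
  have hsk0 : sk ≠ 0 := fun h => hs (injRk (by rw [← hsk, h, map_zero]))
  set zL : Fin n → L := fun j => algebraMap Bb L (algebraMap B Bb (z j)) with hzL
  -- (1) the trace dual basis
  have hdual : bL.traceDual = fun j => algebraMap k L sk⁻¹ * zL j := by
    rw [Basis.traceDual_eq_iff]
    intro i' j
    rw [Algebra.traceForm_apply, mul_assoc, ← Algebra.smul_def, map_smul, hbL j, ← hb j, hzL]
    simp only
    rw [← map_mul, ← map_mul,
      trace_reduction (K := K) (F := F) (k := k) (L := L) π hR hRk hB hBk (z i' * b j) _ (hz i' j)]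
    by_cases h : j = i'
    · rw [if_pos h, if_pos h, smul_eq_mul, ← hsk, inv_mul_cancel₀ hsk0]
    · rw [if_neg h, if_neg h, map_zero, map_zero, smul_zero]
  -- (2) the characteristic zero lift `Y` of the dual basis vector lies in the codifferent
  set u : A := 1 + π * a with hu
  have hsK0 : algebraMap A K s ≠ 0 := fun h => hs0 (injAK (by rw [h, map_zero]))
  have hsF0 : algebraMap A F s ≠ 0 := by
    rw [IsScalarTower.algebraMap_apply A K F]
    exact fun h => hsK0 ((algebraMap K F).injective (by rw [h, map_zero]))
  set Y : F := algebraMap A F u * algebraMap B F (z i) / algebraMap A F s with hY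
  have hYtr : ∀ c : B, ∃ t : A, Algebra.trace K F (Y * algebraMap B F c) = algebraMap A K t := by
    intro c
    obtain ⟨r, hr⟩ := (Submodule.mem_span_range_iff_exists_fun A).1 (ha c)
    refine ⟨r i, ?_⟩
    have h1 : Y * algebraMap B F c
        = (algebraMap A K s)⁻¹ • ∑ j, algebraMap A K (r j) • algebraMap B F (z i * b j) := by
      have h2 : ∑ j, algebraMap A K (r j) • algebraMap B F (z i * b j)
          = algebraMap B F (z i * (u • c)) := by
        rw [← hr, Finset.mul_sum, map_sum]
        refine Finset.sum_congr rfl fun j _ => ?_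
        rw [mul_smul_comm, Algebra.smul_def (r j), map_mul (algebraMap B F) (algebraMap A B (r j)),
          ← IsScalarTower.algebraMap_apply A B F, Algebra.smul_def,
          ← IsScalarTower.algebraMap_apply A K F]
      rw [h2, Algebra.smul_def, map_inv₀, ← IsScalarTower.algebraMap_apply A K F, hY,
        Algebra.smul_def, map_mul, map_mul, ← IsScalarTower.algebraMap_apply A B F]
      field_simp
    rw [h1, map_smul, map_sum]
    have h3 : ∀ j, Algebra.trace K F (algebraMap A K (r j) • algebraMap B F (z i * b j))
        = algebraMap A K (r j) * algebraMap A K (if j = i then s else 0) := by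
      intro j
      rw [map_smul, hz i j, smul_eq_mul]
    rw [Finset.sum_congr rfl fun j _ => h3 j, Finset.sum_eq_single i]
    · rw [if_pos rfl, smul_eq_mul]
      field_simp
    · intro j _ hj
      rw [if_neg hj, map_zero, mul_zero]
    · intro h
      exact absurd (Finset.mem_univ i) h
  -- (3) apply (H0) and cancel the power of `π`
  obtain ⟨m, z', hz'⟩ := H0 Y hYtr
  set X : B := algebraMap A B u ^ E * z i ^ E * algebraMap A B D ^ (E - 1) with hX
  have hB1 : algebraMap A B π ^ m * X = algebraMap A B s ^ E * z' := by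
    apply injBF
    simp only [hX, map_mul, map_pow, ← IsScalarTower.algebraMap_apply A B F]
    rw [← hz', hY, div_pow, mul_pow]
    field_simp
  have hπB : algebraMap A B π ≠ 0 := fun h => hπ (injAB (by rw [h, map_zero]))
  have hsBb : algebraMap B Bb (algebraMap A B s ^ E) ≠ 0 := by
    rw [map_pow, ← IsScalarTower.algebraMap_apply A B Bb, IsScalarTower.algebraMap_apply A R Bb]
    exact pow_ne_zero _ fun h => hs (injRBb (by rw [h, map_zero]))
  obtain ⟨z'', hz''⟩ := exists_eq_mul_of_pow_mul_eq (Bb := Bb) (algebraMap A B π) hπB hBk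
    (algebraMap A B s ^ E) hsBb X m z' hB1
  refine ⟨algebraMap B Bb z'', ?_⟩
  -- reduce mod `π`
  have huR : algebraMap A R u = 1 := by
    rw [hu, map_add, map_one, map_mul, (hRk π).2 dvd_rfl, zero_mul, add_zero]
  have hred : zL i ^ E * algebraMap R L (algebraMap A R D) ^ (E - 1)
      = algebraMap k L sk ^ E * algebraMap Bb L (algebraMap B Bb z'') := by
    have h4 := congrArg (fun x => algebraMap Bb L (algebraMap B Bb x)) hz''
    simp only [hX, map_mul, map_pow] at h4
    rw [← IsScalarTower.algebraMap_apply A B Bb, ← IsScalarTower.algebraMap_apply A B Bb,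
      ← IsScalarTower.algebraMap_apply A B Bb, IsScalarTower.algebraMap_apply A R Bb u,
      IsScalarTower.algebraMap_apply A R Bb D, IsScalarTower.algebraMap_apply A R Bb s,
      huR, map_one, map_one, one_pow, one_mul, ← IsScalarTower.algebraMap_apply R Bb L,
      ← IsScalarTower.algebraMap_apply R Bb L, IsScalarTower.algebraMap_apply R k L
        (algebraMap A R s)] at h4
    exact h4
  have hskL0 : algebraMap k L sk ≠ 0 := fun h =>
    hsk0 ((algebraMap k L).injective (by rw [h, map_zero]))
  rw [hdual]
  simp only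
  rw [mul_pow, mul_assoc, hred, map_inv₀, inv_pow, ← mul_assoc,
    inv_mul_cancel₀ (pow_ne_zero _ hskL0), one_mul]

end Fermat.Agent.S18.Nor
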