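/-
KL-A / NOR-abs (sub-architect helper287).  Assembly.
`B / π` is integrally closed.
-/
import Fermat.Agent.S18.Nor.DualLift
import Fermat.Agent.S18.Nor.CharL

set_option autoImplicit false

namespace Fermat.Agent.S18.Nor

open Module

variable {A R B Bb K F k L : Type*}
  [CommRing A] [IsDomain A] [IsNoetherianRing A] [IsIntegrallyClosed A]
  [CommRing R] [IsDomain R] [IsPrincipalIdealRing R] [Algebra A R]
  [CommRing B] [IsDomain B] [Algebra A B] [Module.Finite A B] [FaithfulSMul A B]
  [CommRing Bb] [IsDomain Bb] [Algebra B Bb] [Algebra A Bb] [Algebra R Bb]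
  [IsScalarTower A B Bb] [IsScalarTower A R Bb] [FaithfulSMul R Bb]
  [Field K] [Algebra A K] [IsFractionRing A K]
  [Field F] [Algebra B F] [IsFractionRing B F] [Algebra A F] [Algebra K F]
  [IsScalarTower A B F] [IsScalarTower A K F]
  [Field k] [Algebra R k] [IsFractionRing R k]
  [Field L] [Algebra Bb L] [IsFractionRing Bb L] [Algebra R L] [Algebra k L]
  [IsScalarTower R Bb L] [IsScalarTower R k L]
  [FiniteDimensional k L] [Algebra.IsSeparable k L]

/-- **NOR-abs.**  `A` normal noetherian domain, `R = A / π` a PID, `B` a domain finite over `A`,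
`Bb = B / π` a domain whose fraction field is separable over that of `R`.  If `D ∈ A` is squarefree
mod `π` and (H0) `Y ∈ codifferent ⇒ Y ^ E * D ^ (E - 1) ∈ B[1/π]`, then `Bb` is integrally closed. -/
theorem isIntegrallyClosed_of_H0 (K F k L : Type*)
    [Field K] [Algebra A K] [IsFractionRing A K]
    [Field F] [Algebra B F] [IsFractionRing B F] [Algebra A F] [Algebra K F]
    [IsScalarTower A B F] [IsScalarTower A K F]
    [Field k] [Algebra R k] [IsFractionRing R k]
    [Field L] [Algebra Bb L] [IsFractionRing Bb L] [Algebra R L] [Algebra k L]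
    [IsScalarTower R Bb L] [IsScalarTower R k L]
    [FiniteDimensional k L] [Algebra.IsSeparable k L] (π : A) (hπ : π ≠ 0)
    (hR : Function.Surjective (algebraMap A R))
    (hRk : ∀ x : A, algebraMap A R x = 0 ↔ π ∣ x)
    (hB : Function.Surjective (algebraMap B Bb))
    (hBk : ∀ z : B, algebraMap B Bb z = 0 ↔ algebraMap A B π ∣ z)
    (D : A) (hD : Squarefree (algebraMap A R D)) (E : ℕ) (hE : 0 < E)
    (H0 : ∀ Y : F, (∀ c : B, ∃ t : A, Algebra.trace K F (Y * algebraMap B F c) = algebraMap A K t) →
      ∃ (m : ℕ) (z : B),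
        algebraMap A F π ^ m * (Y ^ E * algebraMap A F D ^ (E - 1)) = algebraMap B F z) :
    IsIntegrallyClosed Bb := by
  classical
  obtain ⟨n, b, bb, a, hb, ha⟩ := exists_lift (R := R) (Bb := Bb) π hR hB hBk
  obtain ⟨bL, hbL⟩ := exists_basisL (k := k) (L := L) bb
  have hfin : Module.Finite R Bb := finite_Bb A hB
  have hint : Algebra.IsIntegral R Bb := inferInstance
  rw [isIntegrallyClosed_iff L]
  intro x hx
  -- `x` is integral over `R`
  have hxR : IsIntegral R x := isIntegral_trans x hx
  let C := integralClosure R L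
  let xC : C := ⟨x, hxR⟩
  -- the coordinates of `x` in the basis `bL` lie in `R`
  have hcoord : ∀ i, ∃ r : R, bL.repr x i = algebraMap R k r := by
    intro i
    obtain ⟨c, hc⟩ := traceDual_pow_mul_mem (K := K) (F := F) π hπ hR hRk hB hBk D E H0 b bb a hb ha
      bL hbL i
    have hcC : IsIntegral R (algebraMap Bb L c) := (Algebra.IsIntegral.isIntegral c).algebraMap
    obtain ⟨r, hr⟩ := trace_mul_mem_of_pow_mul_mem (R := R) (C := C) (k := k) (L := L)
      (bL.traceDual i) (algebraMap A R D) hD E hE ⟨⟨_, hcC⟩, hc⟩ xC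
    refine ⟨r, ?_⟩
    rw [← hr]
    have h1 : bL.repr x i = (bL.traceDual.traceDual).repr x i := by rw [Basis.traceDual_traceDual]
    rw [h1, Basis.traceDual_repr_apply, Algebra.traceForm_apply, mul_comm]
    rfl
  choose r hr using hcoord
  refine ⟨∑ i, r i • bb i, ?_⟩
  rw [map_sum]
  conv_rhs => rw [← bL.sum_repr x]
  refine Finset.sum_congr rfl fun i _ => ?_
  rw [hr i, hbL i, algebraMap_smul, Algebra.smul_def, map_mul, Algebra.smul_def,
    ← IsScalarTower.algebraMap_apply R Bb L]
end Fermat.Agent.S18.Nor
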