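/-
KL-A / NOR-abs (sub-architect helper287).  Final abstract statements.
`B / π` is a Dedekind domain, with the separability hypothesis in the weak form (S''):
some element of `B` has a trace which is not divisible by `π`.
-/
import Fermat.Agent.S18.Nor.Main
import Fermat.Agent.S18.Nor.Away
import Fermat.Agent.Lib.GoodRed.TameDual

set_option autoImplicit false
set_option linter.unusedSectionVars false
set_option linter.style.haveILetI false

namespace Fermat.Agent.S18.Nor

open Module

section General

variable {A R B Bb K F k L : Type*}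
  [CommRing A] [IsDomain A] [IsNoetherianRing A] [IsIntegrallyClosed A]
  [CommRing R] [IsDomain R] [IsPrincipalIdealRing R] [Algebra A R]
  [CommRing B] [IsDomain B] [Algebra A B] [Module.Finite A B] [FaithfulSMul A B]
  [CommRing Bb] [IsDomain Bb] [Algebra B Bb] [Algebra A Bb] [Algebra R Bb]
  [IsScalarTower A B Bb] [IsScalarTower A R Bb] [FaithfulSMul R Bb]
  [Field K] [Algebra A K] [IsFractionRing A K]
  [Field F] [Algebra B F] [IsFractionRing B F] [Algebra A F] [Algebra K F]
  [IsScalarTower A B F] [IsScalarTower A K F]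
  [Field k] [Algebra R k] [IsFractionRing R k]
  [Field L] [Algebra Bb L] [IsFractionRing Bb L] [Algebra R L] [Algebra k L]
  [IsScalarTower R Bb L] [IsScalarTower R k L]

/-- `L / k` is finite. -/
theorem finiteDimensional_residue (A : Type*) {R B Bb : Type*} (k L : Type*)
    [CommRing A] [CommRing R] [IsDomain R] [IsPrincipalIdealRing R] [Algebra A R]
    [CommRing B] [Algebra A B] [Module.Finite A B]
    [CommRing Bb] [IsDomain Bb] [Algebra B Bb] [Algebra A Bb] [Algebra R Bb]
    [IsScalarTower A B Bb] [IsScalarTower A R Bb] [FaithfulSMul R Bb]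
    [Field k] [Algebra R k] [IsFractionRing R k]
    [Field L] [Algebra Bb L] [IsFractionRing Bb L] [Algebra R L] [Algebra k L]
    [IsScalarTower R Bb L] [IsScalarTower R k L]
    (hB : Function.Surjective (algebraMap B Bb)) : FiniteDimensional k L := by
  have hfin : Module.Finite R Bb := finite_Bb A hB
  obtain ⟨n, bb⟩ : Σ n, Basis (Fin n) R Bb := Module.basisOfFiniteTypeTorsionFree'
  obtain ⟨bL, -⟩ := exists_basisL (k := k) (L := L) bb
  exact Module.Finite.of_basis bL

/-- (S'') implies that the residue extension is separable. -/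
theorem isSeparable_of_trace (K F k L : Type*)
    [Field K] [Algebra A K] [IsFractionRing A K]
    [Field F] [Algebra B F] [IsFractionRing B F] [Algebra A F] [Algebra K F]
    [IsScalarTower A B F] [IsScalarTower A K F]
    [Field k] [Algebra R k] [IsFractionRing R k]
    [Field L] [Algebra Bb L] [IsFractionRing Bb L] [Algebra R L] [Algebra k L]
    [IsScalarTower R Bb L] [IsScalarTower R k L] (π : A)
    (hR : Function.Surjective (algebraMap A R))
    (hRk : ∀ x : A, algebraMap A R x = 0 ↔ π ∣ x)
    (hB : Function.Surjective (algebraMap B Bb))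
    (hBk : ∀ z : B, algebraMap B Bb z = 0 ↔ algebraMap A B π ∣ z)
    (y : B) (t : A) (ht : Algebra.trace K F (algebraMap B F y) = algebraMap A K t)
    (hnt : ¬ π ∣ t) : Algebra.IsSeparable k L := by
  by_contra hsep
  have h1 := trace_reduction (K := K) (F := F) (k := k) (L := L) π hR hRk hB hBk y t ht
  rw [Algebra.trace_eq_zero_of_not_isSeparable hsep, LinearMap.zero_apply] at h1
  have h2 : algebraMap A R t = 0 :=
    IsFractionRing.injective R k (by rw [← h1, map_zero])
  exact hnt ((hRk t).mp h2)

/-- **NOR-abs**, general interface, hypothesis (S''), conclusion: Dedekind. -/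
theorem isDedekindDomain_of_H0 (K F k L : Type*)
    [Field K] [Algebra A K] [IsFractionRing A K]
    [Field F] [Algebra B F] [IsFractionRing B F] [Algebra A F] [Algebra K F]
    [IsScalarTower A B F] [IsScalarTower A K F]
    [Field k] [Algebra R k] [IsFractionRing R k]
    [Field L] [Algebra Bb L] [IsFractionRing Bb L] [Algebra R L] [Algebra k L]
    [IsScalarTower R Bb L] [IsScalarTower R k L] (π : A) (hπ : π ≠ 0)
    (hR : Function.Surjective (algebraMap A R))
    (hRk : ∀ x : A, algebraMap A R x = 0 ↔ π ∣ x)
    (hB : Function.Surjective (algebraMap B Bb))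
    (hBk : ∀ z : B, algebraMap B Bb z = 0 ↔ algebraMap A B π ∣ z)
    (y : B) (t : A) (ht : Algebra.trace K F (algebraMap B F y) = algebraMap A K t)
    (hnt : ¬ π ∣ t)
    (D : A) (hD : Squarefree (algebraMap A R D)) (E : ℕ) (hE : 0 < E)
    (H0 : ∀ Y : F, (∀ c : B, ∃ t : A, Algebra.trace K F (Y * algebraMap B F c) = algebraMap A K t) →
      ∃ (m : ℕ) (z : B),
        algebraMap A F π ^ m * (Y ^ E * algebraMap A F D ^ (E - 1)) = algebraMap B F z) :
    IsDedekindDomain Bb := by
  haveI : FiniteDimensional k L := finiteDimensional_residue A (R := R) k L hB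
  haveI : Algebra.IsSeparable k L := isSeparable_of_trace K F k L π hR hRk hB hBk y t ht hnt
  haveI : IsIntegrallyClosed Bb :=
    isIntegrallyClosed_of_H0 K F k L π hπ hR hRk hB hBk D hD E hE H0
  haveI : Module.Finite R Bb := finite_Bb A hB
  haveI : Algebra.IsIntegral R Bb := inferInstance
  haveI : IsIntegralClosure Bb R L := IsIntegralClosure.of_isIntegrallyClosed Bb R L
  exact IsIntegralClosure.isDedekindDomain R k L Bb

end General

section Quot

attribute [local instance] FractionRing.liftAlgebra FractionRing.isScalarTower_liftAlgebra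

variable {A B : Type*}
  [CommRing A] [IsDomain A] [IsNoetherianRing A] [IsIntegrallyClosed A]
  [CommRing B] [IsDomain B] [Algebra A B] [Module.Finite A B] [FaithfulSMul A B]

/-- `A ∩ π B = π A` (`A` is integrally closed and `B` is integral over `A`). -/
theorem dvd_of_algebraMap_dvd (K F : Type*)
    [Field K] [Algebra A K] [IsFractionRing A K]
    [Field F] [Algebra B F] [IsFractionRing B F] [Algebra A F] [Algebra K F]
    [IsScalarTower A B F] [IsScalarTower A K F] {π a : A} (hπ : π ≠ 0)
    (h : algebraMap A B π ∣ algebraMap A B a) : π ∣ a := by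
  obtain ⟨b, hb⟩ := h
  have hπK : algebraMap A K π ≠ 0 :=
    (map_ne_zero_iff _ (IsFractionRing.injective A K)).mpr hπ
  have hb1 : IsIntegral A (algebraMap B F b) :=
    (Algebra.IsIntegral.isIntegral b).map (IsScalarTower.toAlgHom A B F)
  have hq : algebraMap K F (algebraMap A K a / algebraMap A K π) = algebraMap B F b := by
    have h1 := congrArg (algebraMap B F) hb
    rw [map_mul, ← IsScalarTower.algebraMap_apply A B F, ← IsScalarTower.algebraMap_apply A B F,
      IsScalarTower.algebraMap_apply A K F, IsScalarTower.algebraMap_apply A K F] at h1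
    rw [map_div₀, h1, mul_div_cancel_left₀]
    exact (map_ne_zero_iff _ (algebraMap K F).injective).mpr hπK
  rw [← hq] at hb1
  have hb2 : IsIntegral A (algebraMap A K a / algebraMap A K π) :=
    (isIntegral_algebraMap_iff (algebraMap K F).injective).mp hb1
  obtain ⟨c, hc⟩ := IsIntegrallyClosed.isIntegral_iff.mp hb2
  refine ⟨c, IsFractionRing.injective A K ?_⟩
  rw [map_mul, hc, mul_div_cancel₀ _ hπK]

/-- **NOR-abs**, quotient rings, hypothesis (S''), input (H0). -/
theorem isDedekindDomain_quotient_of_H0 (K F : Type*)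
    [Field K] [Algebra A K] [IsFractionRing A K]
    [Field F] [Algebra B F] [IsFractionRing B F] [Algebra A F] [Algebra K F]
    [IsScalarTower A B F] [IsScalarTower A K F] (π : A) (hπ : Prime π)
    (hPID : IsPrincipalIdealRing (A ⧸ Ideal.span {π}))
    (hπB : Prime (algebraMap A B π))
    (y : B) (t : A) (ht : Algebra.trace K F (algebraMap B F y) = algebraMap A K t)
    (hnt : ¬ π ∣ t)
    (D : A) (hD : Squarefree (Ideal.Quotient.mk (Ideal.span {π}) D)) (E : ℕ) (hE : 0 < E)
    (H0 : ∀ Y : F, (∀ c : B, ∃ t : A, Algebra.trace K F (Y * algebraMap B F c) = algebraMap A K t) →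
      ∃ (m : ℕ) (z : B),
        algebraMap A F π ^ m * (Y ^ E * algebraMap A F D ^ (E - 1)) = algebraMap B F z) :
    IsDedekindDomain (B ⧸ Ideal.span {algebraMap A B π}) := by
  haveI : (Ideal.span {π}).IsPrime := (Ideal.span_singleton_prime hπ.ne_zero).mpr hπ
  haveI : (Ideal.span {algebraMap A B π}).IsPrime :=
    (Ideal.span_singleton_prime hπB.ne_zero).mpr hπB
  haveI : (Ideal.span {algebraMap A B π}).LiesOver (Ideal.span {π}) := ⟨by
    ext a
    rw [Ideal.under_def, Ideal.mem_comap, Ideal.mem_span_singleton, Ideal.mem_span_singleton]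
    exact ⟨map_dvd _, dvd_of_algebraMap_dvd K F hπ.ne_zero⟩⟩
  exact isDedekindDomain_of_H0 (R := A ⧸ Ideal.span {π}) (Bb := B ⧸ Ideal.span {algebraMap A B π})
    K F (FractionRing (A ⧸ Ideal.span {π})) (FractionRing (B ⧸ Ideal.span {algebraMap A B π}))
    π hπ.ne_zero Ideal.Quotient.mk_surjective
    (fun x => by
      rw [Ideal.Quotient.algebraMap_eq, Ideal.Quotient.eq_zero_iff_mem, Ideal.mem_span_singleton])
    Ideal.Quotient.mk_surjective
    (fun x => by
      rw [Ideal.Quotient.algebraMap_eq, Ideal.Quotient.eq_zero_iff_mem, Ideal.mem_span_singleton])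
    y t ht hnt D hD E hE H0

end Quot

section Generic

/-- In a Dedekind domain `B'`: if `B' / f` is reduced and `P ∩ A' = (f)`, then `P ^ 2` does not
divide `(P ∩ A') B'`. -/
theorem not_sq_dvd_of_reduced {A' B' : Type*} [CommRing A'] [CommRing B'] [IsDedekindDomain B']
    [Algebra A' B'] (P : Ideal B') (hP : P.IsPrime) (f : A')
    (hf : P.under A' = Ideal.span {f}) (hf0 : algebraMap A' B' f ≠ 0)
    (hred : ∀ z : B', algebraMap A' B' f ∣ z ^ 2 → algebraMap A' B' f ∣ z) :
    ¬ P ^ 2 ∣ (P.under A').map (algebraMap A' B') := by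
  rintro ⟨J, hJ⟩
  rw [hf, Ideal.map_span, Set.image_singleton] at hJ
  have hne : Ideal.span {algebraMap A' B' f} ≠ ⊥ := by
    rwa [Ne, Ideal.span_singleton_eq_bot]
  have hPJ : P * J ≠ ⊥ := by
    intro h0
    apply hne
    rw [hJ, pow_two, mul_assoc, h0, Ideal.mul_bot]
  have hle : P * J ≤ P * (P * J) := by
    intro z hz
    have h2 : z ^ 2 ∈ Ideal.span {algebraMap A' B' f} := by
      rw [hJ, pow_two, pow_two]
      have h3 : z * z ∈ (P * J) * (P * J) := Ideal.mul_mem_mul hz hz
      have h4 : (P * J) * (P * J) ≤ P * P * J := by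
        calc (P * J) * (P * J) = (P * P * J) * J := by ring
          _ ≤ P * P * J := Ideal.mul_le_left
      exact h4 h3
    have h5 := hred z (Ideal.mem_span_singleton.mp h2)
    have h6 : z ∈ Ideal.span {algebraMap A' B' f} := Ideal.mem_span_singleton.mpr h5
    rwa [hJ, pow_two, mul_assoc] at h6
  have heq : P * (P * J) = 1 * (P * J) := by
    rw [one_mul]
    exact le_antisymm Ideal.mul_le_right hle
  have h1 : P = 1 := mul_right_cancel₀ hPJ heq
  exact hP.ne_top (by rw [h1, Ideal.one_eq_top])

variable {A B K F : Type*}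
  [CommRing A] [IsDomain A] [CommRing B] [IsDomain B] [Algebra A B]
  [Field K] [Algebra A K] [IsFractionRing A K]
  [Field F] [Algebra B F] [IsFractionRing B F] [Algebra A F] [Algebra K F]
  [IsScalarTower A B F] [IsScalarTower A K F] [FiniteDimensional K F]

/-- (H0) from the generic fibre: `A' = A[1/π] ⊆ B' = B[1/π]` Dedekind `ℚ`-algebras, unramified
outside `D`. -/
theorem H0_of_dedekind (π : A) (A' B' : Type*)
    [CommRing A'] [IsDedekindDomain A'] [Algebra ℚ A']
    [CommRing B'] [IsDedekindDomain B'] [Algebra A' B'] [Algebra.IsIntegral A' B']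
    [Algebra A A'] [IsLocalization.Away π A'] [Algebra B B']
    [IsLocalization.Away (algebraMap A B π) B']
    [Algebra A' K] [IsFractionRing A' K] [IsScalarTower A A' K]
    [Algebra B' F] [IsFractionRing B' F] [IsScalarTower B B' F]
    [Algebra A' F] [IsScalarTower A' B' F] [IsScalarTower A' K F]
    (D : A) (hD0 : D ≠ 0)
    (hunr : ∀ P : Ideal B', P.IsPrime → P ≠ ⊥ → algebraMap A' B' (algebraMap A A' D) ∉ P →
      ¬ P ^ 2 ∣ (P.under A').map (algebraMap A' B')) :
    ∀ Y : F, (∀ c : B, ∃ t : A, Algebra.trace K F (Y * algebraMap B F c) = algebraMap A K t) →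
      ∃ (m : ℕ) (z : B),
        algebraMap A F π ^ m * (Y ^ finrank K F * algebraMap A F D ^ (finrank K F - 1)) =
          algebraMap B F z := by
  haveI : CharZero A' := algebraRat.charZero A'
  haveI : CharZero K := charZero_of_injective_algebraMap (IsFractionRing.injective A' K)
  haveI : Algebra.IsSeparable K F := inferInstance
  haveI : IsIntegralClosure B' A' F := IsIntegralClosure.of_isIntegrallyClosed B' A' F
  have hDF : algebraMap A' F (algebraMap A A' D) = algebraMap A F D := by
    rw [IsScalarTower.algebraMap_apply A' K F, ← IsScalarTower.algebraMap_apply A A' K,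
      ← IsScalarTower.algebraMap_apply A K F]
  have hD' : algebraMap A A' D ≠ 0 := by
    intro h0
    have h1 : algebraMap A K D = 0 := by
      rw [IsScalarTower.algebraMap_apply A A' K, h0, map_zero]
    exact hD0 (IsFractionRing.injective A K (by rw [h1, map_zero]))
  refine H0_of_away π A' B' D (finrank K F) fun Y hY => ?_
  have hchar : ∀ p : Ideal A', p.IsMaximal → CharZero (A' ⧸ p) := by
    intro p hp
    haveI : Nontrivial (A' ⧸ p) := Ideal.Quotient.nontrivial_iff.mpr hp.ne_top
    exact algebraRat.charZero _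
  have hYd : Y ∈ Submodule.traceDual A' K (1 : Submodule B' F) := by
    rw [Submodule.mem_traceDual]
    intro a ha
    obtain ⟨c, rfl⟩ := Submodule.mem_one.mp ha
    obtain ⟨t, ht⟩ := hY c
    exact ⟨t, by rw [Algebra.traceForm_apply, ht]⟩
  have hint := GoodRed.isIntegral_pow_mul_pow_of_mem_traceDual A' K hchar (algebraMap A A' D) hD'
    hunr Y hYd
  obtain ⟨z, hz⟩ := (IsIntegralClosure.isIntegral_iff (A := B')).mp hint
  exact ⟨z, by rw [hz, hDF]⟩

end Generic

section Final

variable {A B : Type*}
  [CommRing A] [IsDomain A] [IsNoetherianRing A] [IsIntegrallyClosed A]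
  [CommRing B] [IsDomain B] [Algebra A B] [Module.Finite A B] [FaithfulSMul A B]

/-- **NOR, final abstract statement.**  `A` normal noetherian domain, `π ∈ A` prime with `A / π` a
PID, `B` a domain finite over `A` in which `π` stays prime, (S'') some element of `B` has a trace
prime to `π`, `A' = A[1/π] ⊆ B' = B[1/π]` Dedekind `ℚ`-algebras, `D ∈ A` squarefree mod `π`, and
`B' / A'` unramified outside `D`.  Then `B / π` is a Dedekind domain. -/
theorem isDedekindDomain_quotient (K F : Type*)
    [Field K] [Algebra A K] [IsFractionRing A K]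
    [Field F] [Algebra B F] [IsFractionRing B F] [Algebra A F] [Algebra K F]
    [IsScalarTower A B F] [IsScalarTower A K F] [FiniteDimensional K F]
    (π : A) (A' B' : Type*)
    [CommRing A'] [IsDedekindDomain A'] [Algebra ℚ A']
    [CommRing B'] [IsDedekindDomain B'] [Algebra A' B'] [Algebra.IsIntegral A' B']
    [Algebra A A'] [IsLocalization.Away π A'] [Algebra B B']
    [IsLocalization.Away (algebraMap A B π) B']
    [Algebra A' K] [IsFractionRing A' K] [IsScalarTower A A' K]
    [Algebra B' F] [IsFractionRing B' F] [IsScalarTower B B' F]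
    [Algebra A' F] [IsScalarTower A' B' F] [IsScalarTower A' K F]
    (hπ : Prime π) (hPID : IsPrincipalIdealRing (A ⧸ Ideal.span {π}))
    (hπB : Prime (algebraMap A B π))
    (y : B) (t : A) (ht : Algebra.trace K F (algebraMap B F y) = algebraMap A K t)
    (hnt : ¬ π ∣ t)
    (D : A) (hD : Squarefree (Ideal.Quotient.mk (Ideal.span {π}) D))
    (hunr : ∀ P : Ideal B', P.IsPrime → P ≠ ⊥ → algebraMap A' B' (algebraMap A A' D) ∉ P →
      ¬ P ^ 2 ∣ (P.under A').map (algebraMap A' B')) :
    IsDedekindDomain (B ⧸ Ideal.span {algebraMap A B π}) := by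
  have hD0 : D ≠ 0 := by
    rintro rfl
    haveI : (Ideal.span {π}).IsPrime := (Ideal.span_singleton_prime hπ.ne_zero).mpr hπ
    rw [map_zero] at hD
    exact not_squarefree_zero hD
  exact isDedekindDomain_quotient_of_H0 K F π hπ hPID hπB y t ht hnt D hD (finrank K F)
    Module.finrank_pos (H0_of_dedekind π A' B' D hD0 hunr)

end Final

end Fermat.Agent.S18.Nor
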