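/-
KL-A / NOR (helper287).  The final NOR statement for subrings of a field, with elementwise
hypotheses: all algebra instances are set up inside the proof.
-/
import Fermat.Agent.S18.Nor.Final

set_option autoImplicit false
set_option linter.unusedSectionVars false
set_option linter.style.haveILetI false

namespace Fermat.Agent.S18.Nor

/-- a criterion for `IsFractionRing`. -/
theorem isFractionRing_of_exists {R K : Type*} [CommRing R] [Field K] [Algebra R K]
    (hinj : Function.Injective (algebraMap R K))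
    (h : ∀ y : K, ∃ a b : R, b ≠ 0 ∧ y * algebraMap R K b = algebraMap R K a) :
    IsFractionRing R K := by
  haveI : IsDomain R := hinj.isDomain _
  refine (isLocalization_iff _ _).mpr ⟨fun y => ?_, fun z => ?_, fun {x y} e => ⟨1, by rw [hinj e]⟩⟩
  · exact IsUnit.mk0 _ ((map_ne_zero_iff _ hinj).mpr (nonZeroDivisors.ne_zero y.2))
  · obtain ⟨a, b, hb, e⟩ := h z
    exact ⟨(a, ⟨b, mem_nonZeroDivisors_of_ne_zero hb⟩), e⟩

/-- a criterion for `IsLocalization.Away`. -/
theorem isLocalization_away_of_exists {R S : Type*} [CommRing R] [CommRing S] [Algebra R S]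
    (hinj : Function.Injective (algebraMap R S)) (π : R) (hu : IsUnit (algebraMap R S π))
    (h : ∀ z : S, ∃ (n : ℕ) (a : R), z * algebraMap R S π ^ n = algebraMap R S a) :
    IsLocalization.Away π S := by
  refine (isLocalization_iff _ _).mpr ⟨?_, fun z => ?_, fun {x y} e => ⟨1, by rw [hinj e]⟩⟩
  · rintro ⟨_, n, rfl⟩
    rw [map_pow]
    exact hu.pow n
  · obtain ⟨n, a, e⟩ := h z
    exact ⟨(a, ⟨π ^ n, n, rfl⟩), by rw [map_pow]; exact e⟩

variable {K₀ F : Type*} [Field K₀] [Field F] [Algebra K₀ F] [CharZero F]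

/-- **NOR for subrings of a field.**  `A ⊆ E` normal noetherian with fraction field `E`,
`B` (resp. `B'`) the integral closure of `A` (resp. `A' = A[1/π]`, a PID containing `ℚ`) in `F`,
`π` prime in `A` and in `B`, `A / π` a PID, some `y ∈ B` has trace not divisible by `π`,
`D ∈ A` squarefree mod `π`, `B' / f` reduced for the primes `f` of `A'` not dividing `D`.
Then `B / π` is a Dedekind domain. -/
theorem isDedekindDomain_quotient_subring (E : IntermediateField K₀ F) [FiniteDimensional E F]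
    (A B A' B' : Subring F)
    (hAA' : A ≤ A') (hA'E : ∀ y ∈ A', y ∈ E)
    (hfrac : ∀ y ∈ E, ∃ a ∈ A, ∃ b ∈ A, b ≠ 0 ∧ y * b = a)
    (hB : ∀ y : F, y ∈ B ↔ IsIntegral A y) (hB' : ∀ y : F, y ∈ B' ↔ IsIntegral A' y)
    (hnoeth : IsNoetherianRing A) (hnormal : ∀ y ∈ E, IsIntegral A y → y ∈ A)
    (hPID' : IsPrincipalIdealRing A') (hQ : ∀ n : ℕ, n ≠ 0 → (n : F)⁻¹ ∈ A')
    (π : A) (hπinv : (π : F)⁻¹ ∈ A') (hloc : ∀ y ∈ A', ∃ n : ℕ, (π : F) ^ n * y ∈ A)
    (hπ : Prime π) (hPID : IsPrincipalIdealRing (A ⧸ Ideal.span {π}))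
    (πB : B) (hπB : (πB : F) = π) (hπB' : Prime πB)
    (y : F) (hy : y ∈ B) (hty : ((Algebra.trace E F y : E) : F) / π ∉ A)
    (D : A) (hD : Squarefree (Ideal.Quotient.mk (Ideal.span {π}) D))
    (hunr : ∀ f : A', Prime f → ¬ f ∣ ⟨D, hAA' D.2⟩ →
      ∀ z ∈ B', z ^ 2 / (f : F) ∈ B' → z / (f : F) ∈ B') :
    IsDedekindDomain (B ⧸ Ideal.span {πB}) := by
  classical
  have hAB : A ≤ B := fun a ha => (hB a).mpr (isIntegral_algebraMap (R := A) (x := ⟨a, ha⟩))
  have hA'B' : A' ≤ B' := fun a ha => (hB' a).mpr (isIntegral_algebraMap (R := A') (x := ⟨a, ha⟩))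
  letI iAA' : Algebra A A' := (Subring.inclusion hAA').toAlgebra
  haveI : IsScalarTower A A' F := IsScalarTower.of_algebraMap_eq (fun _ => rfl)
  have hBB' : B ≤ B' := fun b hb => (hB' b).mpr (((hB b).mp hb).tower_top)
  letI iAB : Algebra A B := (Subring.inclusion hAB).toAlgebra
  letI iBB' : Algebra B B' := (Subring.inclusion hBB').toAlgebra
  letI iA'B' : Algebra A' B' := (Subring.inclusion hA'B').toAlgebra
  letI iA'E : Algebra A' E := (RingHom.codRestrict A'.subtype E (fun y => hA'E y y.2)).toAlgebra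
  letI iAE : Algebra A E :=
    (RingHom.codRestrict A.subtype E (fun y => hA'E y (hAA' y.2))).toAlgebra
  haveI : IsScalarTower A B F := IsScalarTower.of_algebraMap_eq (fun _ => rfl)
  haveI : IsScalarTower A E F := IsScalarTower.of_algebraMap_eq (fun _ => rfl)
  haveI : IsScalarTower A A' E := IsScalarTower.of_algebraMap_eq (fun _ => rfl)
  haveI : IsScalarTower B B' F := IsScalarTower.of_algebraMap_eq (fun _ => rfl)
  haveI : IsScalarTower A' B' F := IsScalarTower.of_algebraMap_eq (fun _ => rfl)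
  haveI : IsScalarTower A' E F := IsScalarTower.of_algebraMap_eq (fun _ => rfl)
  have injAE : Function.Injective (algebraMap A E) := fun a b h =>
    Subtype.ext (congrArg (fun e : E => (e : F)) h)
  have injA'E : Function.Injective (algebraMap A' E) := fun a b h =>
    Subtype.ext (congrArg (fun e : E => (e : F)) h)
  have injAB : Function.Injective (algebraMap A B) := fun a b h =>
    Subtype.ext (congrArg (fun e : B => (e : F)) h)
  have injAA' : Function.Injective (algebraMap A A') := fun a b h =>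
    Subtype.ext (congrArg (fun e : A' => (e : F)) h)
  have injBB' : Function.Injective (algebraMap B B') := fun a b h =>
    Subtype.ext (congrArg (fun e : B' => (e : F)) h)
  haveI : CharZero E := ⟨fun a b h => Nat.cast_injective (R := F) (by
    have h1 := congrArg (algebraMap E F) h
    rwa [map_natCast, map_natCast] at h1)⟩
  haveI : Algebra.IsSeparable E F := inferInstance
  haveI : IsFractionRing A E := isFractionRing_of_exists injAE (fun y => by
    obtain ⟨a, ha, b, hb, hb0, e⟩ := hfrac y y.2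
    exact ⟨⟨a, ha⟩, ⟨b, hb⟩, fun h => hb0 (congrArg Subtype.val h), Subtype.ext e⟩)
  haveI : IsFractionRing A' E := isFractionRing_of_exists injA'E (fun y => by
    obtain ⟨a, ha, b, hb, hb0, e⟩ := hfrac y y.2
    exact ⟨⟨a, hAA' ha⟩, ⟨b, hAA' hb⟩, fun h => hb0 (congrArg Subtype.val h), Subtype.ext e⟩)
  haveI : IsIntegrallyClosed A := (isIntegrallyClosed_iff E).mpr (fun {z} hz => by
    have h1 : IsIntegral A ((z : E) : F) := hz.map (IsScalarTower.toAlgHom A E F)
    exact ⟨⟨z, hnormal z z.2 h1⟩, Subtype.ext rfl⟩)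
  haveI : IsIntegralClosure B A F :=
    ⟨Subtype.val_injective, fun {z} => ⟨fun h => ⟨⟨z, (hB z).mpr h⟩, rfl⟩, by
      rintro ⟨b, rfl⟩
      exact (hB b).mp b.2⟩⟩
  haveI : IsIntegralClosure B' A' F :=
    ⟨Subtype.val_injective, fun {z} => ⟨fun h => ⟨⟨z, (hB' z).mpr h⟩, rfl⟩, by
      rintro ⟨b, rfl⟩
      exact (hB' b).mp b.2⟩⟩
  haveI : Module.Finite A B := IsIntegralClosure.finite A E F B
  haveI : IsFractionRing B F := IsIntegralClosure.isFractionRing_of_finite_extension A E F B
  haveI : FaithfulSMul A B := (faithfulSMul_iff_algebraMap_injective A B).mpr injAB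
  haveI : IsDedekindDomain A' := inferInstance
  haveI : IsDedekindDomain B' := IsIntegralClosure.isDedekindDomain A' E F B'
  haveI : IsFractionRing B' F := IsIntegralClosure.isFractionRing_of_finite_extension A' E F B'
  haveI : Algebra.IsIntegral A' B' := IsIntegralClosure.isIntegral_algebra A' F
  -- `ℚ ⊆ A'`
  have hQ' : ∀ q : ℚ, algebraMap ℚ F q ∈ A' := by
    intro q
    rw [eq_ratCast, Rat.cast_def, div_eq_mul_inv]
    exact A'.mul_mem (intCast_mem A' q.num) (hQ q.den q.den_nz)
  letI iQ : Algebra ℚ A' := (RingHom.codRestrict (algebraMap ℚ F) A' hQ').toAlgebra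
  -- localisations
  have hπ0 : (π : F) ≠ 0 := fun h => hπ.ne_zero (Subtype.ext h)
  haveI : IsLocalization.Away π A' := isLocalization_away_of_exists injAA' π
    (IsUnit.of_mul_eq_one (⟨(π : F)⁻¹, hπinv⟩ : A') (Subtype.ext (mul_inv_cancel₀ hπ0)))
    (fun z => by
      obtain ⟨n, hn⟩ := hloc z z.2
      exact ⟨n, ⟨_, hn⟩, Subtype.ext (mul_comm _ _)⟩)
  haveI : IsLocalization.Away (algebraMap A B π) B' := isLocalization_away_of_exists injBB' _
    (IsUnit.of_mul_eq_one (⟨(π : F)⁻¹, hA'B' hπinv⟩ : B') (Subtype.ext (mul_inv_cancel₀ hπ0)))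
    (fun z => by
      obtain ⟨⟨_, n, rfl⟩, hm⟩ := IsIntegral.exists_multiple_integral_of_isLocalization
        (Submonoid.powers π) (Rₘ := A') (z : F) ((hB' z).mp z.2)
      refine ⟨n, ⟨_, (hB _).mpr hm⟩, Subtype.ext ?_⟩
      exact mul_comm _ _)
  -- the uniformiser in `B`
  have hπBeq : algebraMap A B π = πB := Subtype.ext hπB.symm
  -- the trace
  obtain ⟨t, ht⟩ := exists_trace_eq (A := A) (B := B) (K := E) (F := F) ⟨y, hy⟩
  have hnt : ¬ π ∣ t := by
    rintro ⟨c, rfl⟩
    apply hty
    have h1 : ((Algebra.trace E F y : E) : F) = (π : F) * (c : F) :=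
      congrArg (fun e : E => (e : F)) ht
    rw [h1, mul_div_cancel_left₀ _ hπ0]
    exact c.2
  -- unramifiedness
  have hunr' : ∀ P : Ideal B', P.IsPrime → P ≠ ⊥ → algebraMap A' B' (algebraMap A A' D) ∉ P →
      ¬ P ^ 2 ∣ (P.under A').map (algebraMap A' B') := by
    intro P hP hP0 hDP
    haveI := hP
    obtain ⟨f, hf⟩ : ∃ f : A', P.under A' = Ideal.span {f} :=
      ⟨_, (IsPrincipalIdealRing.principal (P.under A')).span_singleton_generator.symm⟩
    have hunder : P.under A' ≠ ⊥ := mt Ideal.eq_bot_of_comap_eq_bot hP0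
    have hf0 : f ≠ 0 := by
      rintro rfl
      apply hunder
      rw [hf, Ideal.span_singleton_eq_bot]
    have hfp : Prime f := by
      rw [← Ideal.span_singleton_prime hf0, ← hf]
      infer_instance
    have hfD : ¬ f ∣ ⟨D, hAA' D.2⟩ := by
      intro hdvd
      apply hDP
      have h1 : (⟨D, hAA' D.2⟩ : A') ∈ P.under A' := by
        rw [hf, Ideal.mem_span_singleton]
        exact hdvd
      exact h1
    have hfF : (f : F) ≠ 0 := fun h => hf0 (Subtype.ext h)
    refine not_sq_dvd_of_reduced P hP f hf (fun h => hfF (congrArg Subtype.val h)) ?_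
    rintro z ⟨w, hw⟩
    have h1 : (z : F) ^ 2 = (f : F) * (w : F) := congrArg Subtype.val hw
    have h2 : (z : F) / (f : F) ∈ B' := by
      apply hunr f hfp hfD z z.2
      rw [h1, mul_div_cancel_left₀ _ hfF]
      exact w.2
    exact ⟨⟨_, h2⟩, Subtype.ext (mul_div_cancel₀ _ hfF).symm⟩
  rw [← hπBeq]
  rw [← hπBeq] at hπB'
  exact isDedekindDomain_quotient E F π A' B' hπ hPID hπB' ⟨y, hy⟩ t ht hnt D hD hunr'

end Fermat.Agent.S18.Nor
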