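/-
KL-A / NOR-abs (sub-architect helper287).  TASK NOR-5.
Characteristic zero input (H0) for Dedekind domains `A' ⊆ B'`: the different is tame, so if `B'/A'`
is unramified outside `D` and `E ≥ [F : K]` then `Y ∈ codifferent ⇒ Y ^ E * D ^ (E - 1) ∈ B'`.
-/
import Mathlib

set_option autoImplicit false
set_option linter.deprecated false
set_option linter.style.haveILetI false
set_option linter.unusedSectionVars false

attribute [local instance] FractionRing.liftAlgebra FractionRing.isScalarTower_liftAlgebra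

namespace Fermat.Agent.S18.Nor

variable {A' B' K F : Type*}
  [CommRing A'] [IsDedekindDomain A'] [Algebra ℚ A']
  [CommRing B'] [IsDedekindDomain B'] [Algebra A' B'] [Module.Finite A' B'] [FaithfulSMul A' B']
  [Field K] [Algebra A' K] [IsFractionRing A' K]
  [Field F] [Algebra B' F] [IsFractionRing B' F] [Algebra A' F] [Algebra K F]
  [IsScalarTower A' B' F] [IsScalarTower A' K F]

omit [Algebra ℚ A'] in
/-- the prime below a nonzero prime is nonzero -/
private theorem under_ne_bot (P : Ideal B') [P.IsPrime] (hP : P ≠ ⊥) : P.under A' ≠ ⊥ :=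
  mt Ideal.eq_bot_of_comap_eq_bot hP

omit [Algebra ℚ A'] in
/-- factorisation `p B' = P ^ e * Q`, `P ∤ Q`, `e ≥ 1`. -/
private theorem exists_decomp (P : Ideal B') [P.IsPrime] (hP : P ≠ ⊥) :
    ∃ (e : ℕ) (Q : Ideal B'), 0 < e ∧ (P.under A').map (algebraMap A' B') = P ^ e * Q ∧
      ¬ P ∣ Q := by
  classical
  have hp0 := under_ne_bot (A' := A') P hP
  have hp' := (Ideal.map_eq_bot_iff_of_injective
    (FaithfulSMul.algebraMap_injective A' B')).not.mpr hp0
  haveI : P.IsMaximal := Ideal.IsPrime.isMaximal inferInstance hP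
  obtain ⟨Q, h1, h2⟩ := Ideal.eq_prime_pow_mul_coprime hp' P
  have hPQ : ¬ P ∣ Q := by
    intro h
    rw [Ideal.dvd_iff_le] at h
    rw [sup_eq_left.2 h] at h1
    exact (Ideal.IsPrime.ne_top inferInstance) h1
  refine ⟨_, Q, ?_, h2, hPQ⟩
  rw [Nat.pos_iff_ne_zero]
  intro h0
  rw [h0, pow_zero, one_mul] at h2
  apply hPQ
  rw [Ideal.dvd_iff_le, ← h2]
  exact Ideal.map_comap_le

/-- Tame different exponent: if `p B' = P ^ e * Q` with `P ∤ Q`, `e ≥ 1`, then `P ^ e ∤ 𝔇`
(all residue fields have characteristic zero because `A'` is a `ℚ`-algebra). -/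
theorem not_pow_dvd_differentIdeal (P Q : Ideal B') [P.IsPrime] (hP : P ≠ ⊥) (e : ℕ) (he : 0 < e)
    (hPQ : (P.under A').map (algebraMap A' B') = P ^ e * Q) (hQ : ¬ P ∣ Q) :
    ¬ P ^ e ∣ differentIdeal A' B' := by
  classical
  have hp0 := under_ne_bot (A' := A') P hP
  set p := P.under A' with hp
  haveI : p.IsMaximal := Ideal.IsPrime.isMaximal inferInstance hp0
  haveI : P.IsMaximal := Ideal.IsPrime.isMaximal inferInstance hP
  haveI : CharZero A' := algebraRat.charZero A'
  haveI : CharZero (FractionRing A') :=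
    charZero_of_injective_algebraMap (IsFractionRing.injective A' (FractionRing A'))
  haveI : Algebra.IsSeparable (FractionRing A') (FractionRing B') := inferInstance
  have hcop : IsCoprime (P ^ e) Q := by
    have h1 : IsCoprime P Q := by
      rw [Ideal.isCoprime_iff_sup_eq]
      by_contra hne
      apply hQ
      rw [Ideal.dvd_iff_le]
      have := (‹P.IsMaximal›.eq_of_le hne le_sup_left)
      rw [this]
      exact le_sup_right
    exact h1.pow_left
  let _i1 : Algebra (A' ⧸ p) (B' ⧸ P ^ e) := Ideal.Quotient.algebraQuotientOfLEComap (by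
      rw [← Ideal.map_le_iff_le_comap, hPQ]
      exact Ideal.mul_le_left)
  let _i2 : Algebra (A' ⧸ p) (B' ⧸ Q) := Ideal.Quotient.algebraQuotientOfLEComap (by
      rw [← Ideal.map_le_iff_le_comap, hPQ]
      exact Ideal.mul_le_right)
  haveI : IsScalarTower A' (A' ⧸ p) (B' ⧸ P ^ e) := .of_algebraMap_eq' rfl
  haveI : IsScalarTower A' (A' ⧸ p) (B' ⧸ Q) := .of_algebraMap_eq' rfl
  haveI : Module.Finite (A' ⧸ p) (B' ⧸ P ^ e) :=
    Module.Finite.of_restrictScalars_finite A' (A' ⧸ p) (B' ⧸ P ^ e)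
  haveI : Module.Finite (A' ⧸ p) (B' ⧸ Q) :=
    Module.Finite.of_restrictScalars_finite A' (A' ⧸ p) (B' ⧸ Q)
  letI : Field (A' ⧸ p) := Ideal.Quotient.field p
  haveI : CharZero (A' ⧸ p) := algebraRat.charZero _
  let ee : (B' ⧸ p.map (algebraMap A' B')) ≃ₐ[A' ⧸ p] ((B' ⧸ P ^ e) × B' ⧸ Q) :=
    { __ := (Ideal.quotEquivOfEq hPQ).trans (Ideal.quotientMulEquivQuotientProd (P ^ e) Q hcop),
      commutes' := Quotient.ind fun _ ↦ rfl }
  obtain ⟨y, hy⟩ := Ideal.Quotient.mk_surjective (ee.symm (1, 0))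
  refine not_dvd_differentIdeal_of_intTrace_not_mem A' (P ^ e) Q hPQ.symm y ?_ ?_
  · have := congr((ee $hy).2)
    simp at this
    simpa [ee, Ideal.Quotient.eq_zero_iff_mem] using this
  · rw [← Ideal.Quotient.eq_zero_iff_mem, ← Algebra.trace_quotient_eq_of_isDedekindDomain,
      hy, Algebra.trace_eq_of_algEquiv, Algebra.trace_prod_apply]
    have hnt : Nontrivial (B' ⧸ P ^ e) := by
      rw [Ideal.Quotient.nontrivial_iff]
      intro htop
      have : P = ⊤ := by
        rw [eq_top_iff, ← htop]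
        exact Ideal.pow_le_self he.ne'
      exact (Ideal.IsPrime.ne_top inferInstance) this
    have h1 : Algebra.trace (A' ⧸ p) (B' ⧸ P ^ e) 1 =
        (Module.finrank (A' ⧸ p) (B' ⧸ P ^ e) : A' ⧸ p) := by
      have := Algebra.trace_algebraMap (R := A' ⧸ p) (S := B' ⧸ P ^ e) 1
      simpa using this
    simp only [map_zero, add_zero]
    rw [h1]
    exact_mod_cast (Module.finrank_pos (R := A' ⧸ p) (M := B' ⧸ P ^ e)).ne'

/-- ramification indices are bounded by the degree. -/
theorem le_finrank_of_map_le_pow (P : Ideal B') [P.IsPrime] (hP : P ≠ ⊥) (e : ℕ)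
    (h : (P.under A').map (algebraMap A' B') ≤ P ^ e) : e ≤ Module.finrank K F := by
  classical
  have hp0 := under_ne_bot (A' := A') P hP
  obtain ⟨n, Q, hn, hPQ, hQ⟩ := exists_decomp (A' := A') P hP
  set p := P.under A' with hp
  haveI : p.IsMaximal := Ideal.IsPrime.isMaximal inferInstance hp0
  have hnot : ¬ p.map (algebraMap A' B') ≤ P ^ (n + 1) := by
    intro hle
    rw [← Ideal.dvd_iff_le, hPQ, pow_succ] at hle
    exact hQ ((mul_dvd_mul_iff_left (pow_ne_zero n hP)).1 hle)
  have hram : Ideal.ramificationIdx' p P = n := by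
    refine Ideal.ramificationIdx'_spec ?_ hnot
    rw [hPQ]
    exact Ideal.mul_le_left
  have hen : e ≤ n := by
    by_contra hlt
    exact hnot (h.trans (Ideal.pow_le_pow_right (by omega)))
  haveI : P.LiesOver p := ⟨rfl⟩
  have hmem : P ∈ IsDedekindDomain.primesOverFinset p B' :=
    (IsDedekindDomain.mem_primesOverFinset_iff hp0 _).mpr ⟨inferInstance, inferInstance⟩
  have hsum := Ideal.sum_ramification_inertia B' K F hp0
  have h1 : Ideal.ramificationIdx' p P * Ideal.inertiaDeg' p P ≤ Module.finrank K F := by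
    rw [← hsum]
    exact Finset.single_le_sum (f := fun P => Ideal.ramificationIdx' p P * Ideal.inertiaDeg' p P)
      (fun _ _ => Nat.zero_le _) hmem
  have h2 : 0 < Ideal.inertiaDeg' p P := Ideal.inertiaDeg'_pos p P
  rw [hram] at h1
  nlinarith

open WithZero in
/-- arithmetic in the value group -/
private theorem val_key (a τ δ : WithZero (Multiplicative ℤ)) (e E : ℕ) (h1 : a * τ ≤ 1)
    (h2 : ¬ τ ≤ exp (-(e : ℤ))) (h3 : δ ≤ exp (-(e : ℤ))) (heE : e ≤ E) (hE : 1 ≤ E) :
    a ^ E * δ ^ (E - 1) ≤ 1 := by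
  rcases eq_or_ne a 0 with rfl | ha
  · rw [zero_pow (by omega), zero_mul]
    exact zero_le'
  have hτ : τ ≠ 0 := by
    rintro rfl
    exact h2 zero_le'
  have h4 : a ^ E * δ ^ (E - 1) ≤ a ^ E * (exp (-(e : ℤ))) ^ (E - 1) :=
    mul_le_mul_right (pow_le_pow_left₀ zero_le' h3 _) _
  refine h4.trans ?_
  obtain ⟨α, rfl⟩ : ∃ α : ℤ, a = exp α := ⟨log a, (exp_log ha).symm⟩
  obtain ⟨θ, rfl⟩ : ∃ θ : ℤ, τ = exp θ := ⟨log τ, (exp_log hτ).symm⟩
  rw [exp_le_exp, not_le] at h2
  rw [← exp_add, ← exp_zero, exp_le_exp] at h1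
  rw [← exp_nsmul, ← exp_nsmul, ← exp_add, ← exp_zero, exp_le_exp]
  obtain ⟨E', rfl⟩ : ∃ E', E = E' + 1 := ⟨E - 1, by omega⟩
  simp only [Nat.add_sub_cancel, nsmul_eq_mul]
  push_cast
  have h5 : α ≤ (e : ℤ) - 1 := by omega
  have h6 : (e : ℤ) ≤ E' + 1 := by exact_mod_cast heE
  nlinarith

/-- **(H0) for Dedekind domains in characteristic zero.** -/
theorem pow_mul_mem_of_trace_mem (D : A') (E : ℕ) (hE : Module.finrank K F ≤ E)
    (hunr : ∀ (P : Ideal B') [P.IsPrime], algebraMap A' B' D ∉ P → Algebra.IsUnramifiedAt A' P)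
    (Y : F)
    (hY : ∀ c : B', ∃ t : A', Algebra.trace K F (Y * algebraMap B' F c) = algebraMap A' K t) :
    ∃ z : B', Y ^ E * algebraMap A' F D ^ (E - 1) = algebraMap B' F z := by
  classical
  haveI : CharZero A' := algebraRat.charZero A'
  haveI : CharZero (FractionRing A') :=
    charZero_of_injective_algebraMap (IsFractionRing.injective A' (FractionRing A'))
  haveI : CharZero K := charZero_of_injective_algebraMap (IsFractionRing.injective A' K)
  haveI : Algebra.IsSeparable (FractionRing A') (FractionRing B') := inferInstance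
  haveI : Algebra.IsIntegral A' B' := inferInstance
  haveI : Algebra.IsAlgebraic K F := isAlgebraic_of_isFractionRing A' B' K F
  haveI : Algebra.IsSeparable K F := inferInstance
  haveI : IsIntegralClosure B' A' F := IsIntegralClosure.of_isIntegrallyClosed B' A' F
  haveI : IsLocalization (Algebra.algebraMapSubmonoid B' (nonZeroDivisors A')) F :=
    IsIntegralClosure.isLocalization A' K F B'
  haveI : FiniteDimensional K F := .of_isLocalization A' B' (nonZeroDivisors A')
  have hE1 : 1 ≤ E := le_trans Module.finrank_pos hE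
  -- `Y` times an element of the different is integral
  have hYdual : Y ∈ FractionalIdeal.dual A' K (1 : FractionalIdeal (nonZeroDivisors B') F) := by
    rw [FractionalIdeal.mem_dual (one_ne_zero' (FractionalIdeal (nonZeroDivisors B') F))]
    intro a ha
    obtain ⟨c, rfl⟩ := (FractionalIdeal.mem_one_iff _).1 ha
    obtain ⟨t, ht⟩ := hY c
    exact ⟨t, ht.symm⟩
  have hmul : ∀ t ∈ differentIdeal A' B', ∃ z : B', Y * algebraMap B' F t = algebraMap B' F z := by
    intro t ht
    have h1 : algebraMap B' F t ∈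
        ((differentIdeal A' B' : Ideal B') : FractionalIdeal (nonZeroDivisors B') F) :=
      (FractionalIdeal.mem_coeIdeal _).2 ⟨t, ht, rfl⟩
    rw [coeIdeal_differentIdeal A' K F B'] at h1
    have h2 := FractionalIdeal.mul_mem_mul hYdual h1
    rw [mul_inv_cancel₀ (FractionalIdeal.dual_ne_zero A' K
      (one_ne_zero' (FractionalIdeal (nonZeroDivisors B') F)))] at h2
    obtain ⟨z, hz⟩ := (FractionalIdeal.mem_one_iff _).1 h2
    exact ⟨z, hz.symm⟩
  have hmem := IsDedekindDomain.HeightOneSpectrum.mem_integers_of_valuation_le_one F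
    (R := B') (Y ^ E * algebraMap A' F D ^ (E - 1)) ?_
  · obtain ⟨z, hz⟩ := hmem
    exact ⟨z, hz.symm⟩
  intro v
  haveI : v.asIdeal.IsPrime := v.isPrime
  rw [map_mul, map_pow, map_pow, IsScalarTower.algebraMap_apply A' B' F,
    IsDedekindDomain.HeightOneSpectrum.valuation_of_algebraMap]
  by_cases hD : algebraMap A' B' D ∈ v.asIdeal
  · obtain ⟨e, Q, he, hPQ, hQ⟩ := exists_decomp (A' := A') v.asIdeal v.ne_bot
    have hnd := not_pow_dvd_differentIdeal v.asIdeal Q v.ne_bot e he hPQ hQ
    rw [Ideal.dvd_iff_le, SetLike.not_le_iff_exists] at hnd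
    obtain ⟨t, ht, htP⟩ := hnd
    obtain ⟨z, hz⟩ := hmul t ht
    have heE : e ≤ E := (le_finrank_of_map_le_pow (K := K) (F := F) v.asIdeal v.ne_bot e (by
      rw [hPQ]; exact Ideal.mul_le_left)).trans hE
    refine val_key _ (v.intValuation t) _ e E ?_ ?_ ?_ heE hE1
    · rw [← IsDedekindDomain.HeightOneSpectrum.valuation_of_algebraMap (K := F), ← map_mul, hz]
      exact v.valuation_le_one z
    · rwa [IsDedekindDomain.HeightOneSpectrum.intValuation_le_pow_iff_mem]
    · rw [IsDedekindDomain.HeightOneSpectrum.intValuation_le_pow_iff_mem]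
      have h1 : algebraMap A' B' D ∈ (v.asIdeal.under A').map (algebraMap A' B') :=
        Ideal.mem_map_of_mem _ hD
      rw [hPQ] at h1
      exact Ideal.mul_le_left h1
  · have hu := hunr v.asIdeal hD
    rw [← not_dvd_differentIdeal_iff, Ideal.dvd_iff_le, SetLike.not_le_iff_exists] at hu
    obtain ⟨t, ht, htP⟩ := hu
    obtain ⟨z, hz⟩ := hmul t ht
    have h1 : v.valuation F (algebraMap B' F t) = 1 :=
      (v.valuation_eq_one_iff_notMem).2 htP
    have h2 : v.valuation F Y ≤ 1 := by
      have h3 : v.valuation F (algebraMap B' F z) ≤ 1 := v.valuation_le_one (K := F) z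
      rw [← hz, map_mul, h1, mul_one] at h3
      exact h3
    exact mul_le_one' (pow_le_one' h2 _) (pow_le_one' (v.intValuation_le_one _) _)

end Fermat.Agent.S18.Nor
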